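import Fermat.Agent.GrossRegulator.FerreroGreenberg
import Fermat.Agent.GalCoh.LocalField

/-!
# Iwasawa's logarithm on the algebraic numbers in `ℂ_p`

For `y ≠ 0` algebraic some `z = y^a p^b`, `a > 0`, is near `1` (`exists_near_one`), and
`iwasawaLog y = plog z / a` does not depend on the choice: it is additive and kills `p`.
-/

set_option autoImplicit false
set_option linter.unusedSectionVars false
set_option linter.style.haveILetI false

noncomputable section

open FA.Brumer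
open scoped Classical

namespace FA.GrossRegulator

variable {p : ℕ} [hp : Fact p.Prime]

/-- A power times a power of `p` lies in the disc of the logarithm. -/
def Near (y : ℂ_[p]) (a : ℕ) (b : ℤ) : Prop :=
  0 < a ∧ ‖y ^ a * (p : ℂ_[p]) ^ b - 1‖ ≤ rad p

variable (p) in
/-- **Iwasawa's logarithm**, `log p = 0` (junk `0` without a suitable power). -/
def iwasawaLog (y : ℂ_[p]) : ℂ_[p] :=
  if h : ∃ x : ℕ × ℤ, Near y x.1 x.2 then
    plog p (y ^ h.choose.1 * (p : ℂ_[p]) ^ h.choose.2) / (h.choose.1 : ℂ_[p]) else 0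

theorem norm_eq_one_of_disc {z : ℂ_[p]} (h : ‖z - 1‖ ≤ rad p) : ‖z‖ = 1 := by
  rw [← pexp_plog (p := p) h]
  exact norm_pexp (p := p) (small_of_le (p := p) (norm_plog_le _))

theorem natPrime_ne_zero : (p : ℂ_[p]) ≠ 0 := FA.GrossKoblitz.natCast_prime_ne_zero

theorem norm_prime_zpow (b : ℤ) : ‖(p : ℂ_[p]) ^ b‖ = (p : ℝ) ^ (-b) := by
  rw [norm_zpow, FA.GrossKoblitz.norm_prime_eq, inv_zpow, zpow_neg]

theorem prime_zpow_injective : Function.Injective fun b : ℤ => ‖(p : ℂ_[p]) ^ b‖ := fun b c h => by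
  simp only [norm_prime_zpow] at h
  exact neg_injective (zpow_right_injective₀ (by exact_mod_cast hp.out.pos)
    (by exact_mod_cast hp.out.ne_one) h)

/-- The logarithm of a power. -/
theorem plog_pow {z : ℂ_[p]} (h : ‖z - 1‖ ≤ rad p) (n : ℕ) :
    ‖z ^ n - 1‖ ≤ rad p ∧ plog p (z ^ n) = (n : ℂ_[p]) * plog p z := by
  have h1 := plog_prod (p := p) (Finset.range n) (fun _ => z) fun _ _ => h
  simpa [Finset.prod_const, Finset.sum_const] using h1

theorem iwasawaLog_eq {y : ℂ_[p]} {a : ℕ} {b : ℤ} (h : Near y a b) :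
    iwasawaLog p y = plog p (y ^ a * (p : ℂ_[p]) ^ b) / (a : ℂ_[p]) := by
  have hex : ∃ x : ℕ × ℤ, Near y x.1 x.2 := ⟨(a, b), h⟩
  rw [iwasawaLog, dif_pos hex]
  obtain ⟨ha', h'⟩ := hex.choose_spec
  set a' := hex.choose.1
  set b' := hex.choose.2
  obtain ⟨ha, h⟩ := h
  obtain ⟨h1, e1⟩ := plog_pow h a'
  obtain ⟨h1', e1'⟩ := plog_pow h' a
  have hy : y ≠ 0 := fun e => by
    rw [e, zero_pow ha.ne', zero_mul, zero_sub, norm_neg, norm_one] at h
    have h1 : FA.Brumer.Small p (1 : ℂ_[p]) := small_of_le (by rwa [norm_one])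
    unfold FA.Brumer.Small at h1
    rw [norm_one, mul_one] at h1
    exact absurd h1 (not_lt.2 (by exact_mod_cast hp.out.one_le))
  have key : ∀ (m n : ℕ) (c : ℤ), (y ^ m * (p : ℂ_[p]) ^ c) ^ n =
      y ^ (m * n) * (p : ℂ_[p]) ^ (c * (n : ℤ)) := fun m n c => by
    rw [mul_pow, ← pow_mul, ← zpow_natCast ((p : ℂ_[p]) ^ c) n, ← zpow_mul]
  rw [key] at h1 h1' e1 e1'
  rw [mul_comm a' a] at h1' e1'
  -- the two exponents of `p` agree
  have hb : b * (a' : ℤ) = b' * (a : ℤ) := by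
    refine prime_zpow_injective (p := p) ?_
    have n1 := norm_eq_one_of_disc h1
    have n2 := norm_eq_one_of_disc h1'
    rw [norm_mul] at n1 n2
    exact mul_left_cancel₀ (norm_ne_zero_iff.2 (pow_ne_zero _ hy)) (n1.trans n2.symm)
  rw [hb] at e1
  rw [div_eq_div_iff (Nat.cast_ne_zero.2 ha'.ne') (Nat.cast_ne_zero.2 ha.ne'), mul_comm, ← e1', e1,
    mul_comm]

theorem near_mul {y : ℂ_[p]} {a : ℕ} {b : ℤ} (h : Near y a b) {n : ℕ} (hn : 0 < n) :
    Near y (a * n) (b * n) := by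
  refine ⟨Nat.mul_pos h.1 hn, ?_⟩
  rw [pow_mul, zpow_mul, zpow_natCast, ← mul_pow]
  exact (plog_pow h.2 n).1

theorem near_one : Near (1 : ℂ_[p]) 1 0 :=
  ⟨one_pos, by rw [one_pow, zpow_zero, mul_one, sub_self, norm_zero]; exact rad_pos.le⟩

theorem near_prime : Near (p : ℂ_[p]) 1 (-1) :=
  ⟨one_pos, by
    rw [pow_one, zpow_neg_one, mul_inv_cancel₀ natPrime_ne_zero, sub_self, norm_zero]
    exact rad_pos.le⟩

theorem iwasawaLog_one : iwasawaLog p (1 : ℂ_[p]) = 0 := by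
  rw [iwasawaLog_eq near_one, one_pow, zpow_zero, mul_one]
  have h := plog_pow (p := p) (z := 1) (by rw [sub_self, norm_zero]; exact rad_pos.le) 0
  rw [pow_zero] at h
  rw [h.2]
  simp

theorem iwasawaLog_prime : iwasawaLog p (p : ℂ_[p]) = 0 := by
  rw [iwasawaLog_eq near_prime, pow_one, zpow_neg_one, mul_inv_cancel₀ natPrime_ne_zero]
  have h := plog_pow (p := p) (z := 1) (by rw [sub_self, norm_zero]; exact rad_pos.le) 0
  rw [pow_zero] at h
  rw [h.2]
  simp

theorem iwasawaLog_of_disc {z : ℂ_[p]} (h : ‖z - 1‖ ≤ rad p) : iwasawaLog p z = plog p z := by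
  rw [iwasawaLog_eq (a := 1) (b := 0) ⟨one_pos, by simpa using h⟩]
  simp

/-- The logarithm is additive. -/
theorem iwasawaLog_mul {x y : ℂ_[p]} {a c : ℕ} {b d : ℤ} (hx : Near x a b) (hy : Near y c d) :
    Near (x * y) (a * c) (b * c + d * a) ∧
      iwasawaLog p (x * y) = iwasawaLog p x + iwasawaLog p y := by
  have hx' := near_mul hx hy.1
  have hy' := near_mul hy hx.1
  rw [mul_comm c a] at hy'
  have he : (x * y) ^ (a * c) * (p : ℂ_[p]) ^ (b * (c : ℤ) + d * (a : ℤ)) =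
      (x ^ (a * c) * (p : ℂ_[p]) ^ (b * (c : ℤ))) *
        (y ^ (a * c) * (p : ℂ_[p]) ^ (d * (a : ℤ))) := by
    rw [mul_pow, zpow_add₀ natPrime_ne_zero]
    ring
  have hm := plog_prod (p := p) Finset.univ
    ![x ^ (a * c) * (p : ℂ_[p]) ^ (b * (c : ℤ)), y ^ (a * c) * (p : ℂ_[p]) ^ (d * (a : ℤ))]
    (fun i _ => by fin_cases i <;> simp [hx'.2, hy'.2])
  simp only [Fin.prod_univ_two, Fin.sum_univ_two, Matrix.cons_val_zero, Matrix.cons_val_one] at hm
  have hnear : Near (x * y) (a * c) (b * (c : ℤ) + d * (a : ℤ)) := ⟨hx'.1, by rw [he]; exact hm.1⟩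
  refine ⟨hnear, ?_⟩
  rw [iwasawaLog_eq hnear, iwasawaLog_eq hx', iwasawaLog_eq hy', he, hm.2, add_div]

/-- **Every algebraic number has a suitable power.** -/
theorem exists_near_one {y : ℂ_[p]} (hy : y ≠ 0) (halg : IsAlgebraic ℚ y) :
    ∃ (a : ℕ) (b : ℤ), Near y a b := by
  -- it lies in the algebraic closure of `ℚ_p`
  obtain ⟨w, hw⟩ : ∃ w : PadicAlgCl p, (w : ℂ_[p]) = y := by
    obtain ⟨P, hP0, hP⟩ := halg
    have hroot : ((P.map (algebraMap ℚ (PadicAlgCl p))).map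
        (algebraMap (PadicAlgCl p) ℂ_[p])).IsRoot y := by
      rw [Polynomial.map_map, Polynomial.IsRoot, Polynomial.eval_map,
        Subsingleton.elim ((algebraMap (PadicAlgCl p) ℂ_[p]).comp (algebraMap ℚ (PadicAlgCl p)))
          (algebraMap ℚ ℂ_[p]), ← Polynomial.aeval_def]
      exact hP
    exact Polynomial.Splits.mem_range_of_isRoot (IsAlgClosed.splits _)
      ((Polynomial.map_ne_zero_iff (algebraMap ℚ (PadicAlgCl p)).injective).2 hP0) hroot
  have hw0 : w ≠ 0 := fun e => hy (by rw [← hw, e, PadicComplex.coe_zero])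
  set E := IntermediateField.adjoin ℚ_[p] ({w} : Set (PadicAlgCl p))
  haveI : FiniteDimensional ℚ_[p] E :=
    IntermediateField.adjoin.finiteDimensional (Algebra.IsAlgebraic.isAlgebraic w).isIntegral
  have hwE : w ∈ E := IntermediateField.mem_adjoin_simple_self _ _
  obtain ⟨m, hm⟩ := FA.GalCoh.norm_pow_finrank E w hwE hw0
  set d := Module.finrank ℚ_[p] E
  set z : PadicAlgCl p := w ^ d * (p : PadicAlgCl p) ^ m
  have hzE : z ∈ E := mul_mem (pow_mem hwE d) (zpow_mem (natCast_mem E p) m)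
  have hz1 : ‖z‖ = 1 := by
    rw [norm_mul, norm_pow, norm_zpow, hm, ← map_natCast (algebraMap ℚ_[p] (PadicAlgCl p)) p,
      PadicAlgCl.norm_extends, Padic.norm_p, inv_zpow,
      mul_inv_cancel₀ (zpow_ne_zero _ (Nat.cast_ne_zero.2 hp.out.ne_zero))]
  -- two powers are close
  haveI : ProperSpace E := FiniteDimensional.proper ℚ_[p] E
  have hball : ∀ n, (⟨z, hzE⟩ : E) ^ n ∈ Metric.closedBall (0 : E) 1 := fun n => by
    rw [mem_closedBall_zero_iff, norm_pow]
    exact pow_le_one₀ (norm_nonneg _) hz1.le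
  obtain ⟨l, -, φ, hφ, hlim⟩ := (isCompact_closedBall (0 : E) 1).tendsto_subseq hball
  obtain ⟨N, hN⟩ := Metric.cauchySeq_iff.1 hlim.cauchySeq (rad p) rad_pos
  have hlt : φ N < φ (N + 1) := hφ (Nat.lt_succ_self N)
  have hd := hN (N + 1) (Nat.le_succ N) N le_rfl
  rw [dist_eq_norm] at hd
  have hd' : ‖z ^ φ (N + 1) - z ^ φ N‖ < rad p := hd
  obtain ⟨k, hk, hk0⟩ : ∃ k, φ (N + 1) = φ N + k ∧ 0 < k :=
    ⟨φ (N + 1) - φ N, by omega, by omega⟩
  rw [hk, pow_add, ← mul_sub_one, norm_mul, norm_pow, hz1, one_pow, one_mul] at hd'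
  refine ⟨d * k, m * k, Nat.mul_pos Module.finrank_pos hk0, ?_⟩
  rw [← hw, pow_mul, zpow_mul, zpow_natCast, ← mul_pow, PadicComplex.coe_eq,
    ← map_natCast (algebraMap (PadicAlgCl p) ℂ_[p]) p, ← map_pow, ← map_zpow₀, ← map_mul,
    ← map_pow, ← map_one (algebraMap (PadicAlgCl p) ℂ_[p]), ← map_sub, ← PadicComplex.coe_eq,
    PadicComplex.norm_extends]
  exact hd'.le

end FA.GrossRegulator
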