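import Fermat.Agent.GrossRegulator.Orbit
import Fermat.Agent.Transcendence.Brumer
import Fermat.Agent.AbelianFE.ZeroValue

/-!
# The non-vanishing of Ferrero and Greenberg

For `χ` primitive and odd modulo `f`, `p ∤ f`, `χ(p) = 1`, the combination
`∑ χ(a) log_p Γ_p(a / f)` is not zero (`sum_plog_ne_zero`): by Brumer's theorem a vanishing one
forces `∑ χ(a) a = 0`.
-/

set_option autoImplicit false
set_option linter.unusedSectionVars false
set_option linter.style.haveILetI false

noncomputable section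

open Finset FA.GrossKoblitz FA.Brumer

namespace FA.GrossRegulator

variable {p : ℕ} [hp : Fact p.Prime]

/-- The sum `∑ χ(a) a` does not vanish in characteristic zero. -/
theorem bernoulli_ne_zero {f : ℕ} [NeZero f] {χ : DirichletCharacter ℂ f} (hprim : χ.IsPrimitive)
    (hodd : χ.Odd) : ∑ a : ZMod f, χ a * (a.val : ℂ) ≠ 0 := fun h => by
  have hodd' := FA.AbelianFE.odd_inv hodd
  have hne : χ⁻¹ ≠ 1 := fun e => by
    have h' : χ⁻¹ (-1) = -1 := hodd'
    rw [e, MulChar.one_apply isUnit_one.neg] at h'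
    norm_num at h'
  refine DirichletCharacter.LFunction_apply_one_ne_zero hne ?_
  rw [FA.Summary.lFunction_one_closedForm (FA.AbelianFE.one_lt_of_odd hodd)
    ((DirichletCharacter.conductor_inv χ).trans hprim), inv_inv,
    FA.AbelianFE.sum_mul_log_of_odd hodd, h, mul_zero, mul_zero]

theorem bernoulli_ne_zero_padic {f : ℕ} [NeZero f] {χ : DirichletCharacter ℂ_[p] f}
    (hprim : χ.IsPrimitive) (hodd : χ.Odd) : ∑ a : ZMod f, χ a * (a.val : ℂ_[p]) ≠ 0 := fun h => by
  haveI : Algebra.IsAlgebraic ℚ (algebraicClosure ℚ ℂ_[p]) := ⟨fun x => by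
    obtain ⟨P, hP0, hP⟩ := mem_algebraicClosure_iff.1 x.2
    refine ⟨P, hP0, Subtype.ext ?_⟩
    show (algebraicClosure ℚ ℂ_[p]).val (Polynomial.aeval x P) = 0
    rw [← Polynomial.aeval_algHom_apply]
    exact hP⟩
  have hval : ∀ a, χ a ∈ algebraicClosure ℚ ℂ_[p] := fun a => by
    by_cases ha : IsUnit a
    · obtain ⟨u, rfl⟩ := ha
      refine mem_algebraicClosure_iff.2 (IsIntegral.of_pow (Nat.totient_pos.2 (NeZero.pos f))
        ?_).isAlgebraic
      rw [← map_pow, ← Units.val_pow_eq_pow_val, ZMod.pow_totient, Units.val_one, map_one]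
      exact isIntegral_one
    · rw [χ.map_nonunit ha]
      exact zero_mem _
  let χL : DirichletCharacter (algebraicClosure ℚ ℂ_[p]) f :=
    { toFun := fun x => ⟨χ x, hval x⟩
      map_one' := Subtype.ext (map_one χ)
      map_mul' := fun x y => Subtype.ext (map_mul χ x y)
      map_nonunit' := fun x hx => Subtype.ext (χ.map_nonunit hx) }
  let j : algebraicClosure ℚ ℂ_[p] →+* ℂ :=
    (IsAlgClosed.lift : algebraicClosure ℚ ℂ_[p] →ₐ[ℚ] ℂ).toRingHom
  set χc : DirichletCharacter ℂ f := χL.ringHomComp j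
  have hoddc : χc.Odd := by
    show j (χL (-1)) = -1
    rw [show χL (-1) = -1 from Subtype.ext hodd, map_neg, map_one]
  have hprimc : χc.IsPrimitive := by
    rw [DirichletCharacter.isPrimitive_def]
    refine Nat.dvd_antisymm χc.conductor_dvd_level ?_
    have hfac : χ.FactorsThrough χc.conductor := by
      refine (DirichletCharacter.factorsThrough_iff_ker_unitsMap χc.conductor_dvd_level).2
        fun u hu => MonoidHom.mem_ker.2 (Units.ext ?_)
      have h1 := congrArg Units.val (MonoidHom.mem_ker.1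
        ((DirichletCharacter.factorsThrough_iff_ker_unitsMap χc.conductor_dvd_level).1
          χc.factorsThrough_conductor hu))
      rw [MulChar.coe_toUnitHom, Units.val_one] at h1 ⊢
      exact congrArg Subtype.val (j.injective (h1.trans (map_one j).symm))
    have h1 := (DirichletCharacter.mem_conductorSet_iff_conductor_dvd χ
      χc.conductor_dvd_level).1 hfac
    rwa [(DirichletCharacter.isPrimitive_def χ).1 hprim] at h1
  refine bernoulli_ne_zero hprimc hoddc ?_
  have h1 : ∑ a : ZMod f, χL a * (a.val : algebraicClosure ℚ ℂ_[p]) = 0 := Subtype.ext (by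
    simp only [AddSubmonoidClass.coe_finsetSum, MulMemClass.coe_mul]
    exact h)
  have h2 := congrArg j h1
  simp only [map_sum, map_mul, map_natCast, map_zero] at h2
  exact h2

variable (p) in
/-- The exponent putting every unit of `ℤ_p` in the disc of the logarithm. -/
def gammaExp : ℕ := (p - 1) * p ^ 2

theorem gammaExp_pos : 0 < gammaExp p :=
  Nat.mul_pos (Nat.sub_pos_of_lt hp.out.one_lt) (pow_pos hp.out.pos _)

theorem norm_gamma_pow_sub_one_le (x : ℤ_[p]) : ‖padicGamma p x ^ gammaExp p - 1‖ ≤ rad p := by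
  obtain ⟨u, hu⟩ := exists_padicGamma_eq x
  have hcard : Fintype.card (ZMod (p ^ 3))ˣ = gammaExp p := by
    rw [ZMod.card_units_eq_totient, Nat.totient_prime_pow hp.out (by norm_num), gammaExp, mul_comm]
  have h : (u : ℤ_[p]) ^ gammaExp p - 1 ∈ Ideal.span {(p : ℤ_[p]) ^ 3} := by
    rw [← PadicInt.ker_toZModPow, RingHom.mem_ker, map_sub, map_pow, map_one, sub_eq_zero, ← hcard]
    have := congrArg Units.val
      (pow_card_eq_one (x := Units.map (PadicInt.toZModPow 3).toMonoidHom u))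
    rw [Units.val_pow_eq_pow_val, Units.val_one] at this
    exact this
  have h' := (PadicInt.norm_le_pow_iff_mem_span_pow _ 3).2 h
  rw [← hu, ← map_pow, ← map_one (toCp p), ← map_sub]
  show ‖(((((u : ℤ_[p]) ^ gammaExp p - 1 : ℤ_[p]) : ℚ_[p])) : ℂ_[p])‖ ≤ rad p
  rw [PadicComplex.norm_extends', ← PadicInt.norm_def]
  refine h'.trans_eq ?_
  rw [rad, zpow_neg, zpow_natCast]

/-- The logarithm of a product. -/
theorem plog_prod {ι : Type*} (s : Finset ι) (α : ι → ℂ_[p]) (h : ∀ i ∈ s, ‖α i - 1‖ ≤ rad p) :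
    ‖∏ i ∈ s, α i - 1‖ ≤ rad p ∧ plog p (∏ i ∈ s, α i) = ∑ i ∈ s, plog p (α i) := by
  classical
  induction s using Finset.induction_on with
  | empty =>
    have h1 : ‖(1 : ℂ_[p]) - 1‖ ≤ rad p := by
      rw [sub_self, norm_zero]
      exact (rad_pos (p := p)).le
    refine ⟨by simpa using h1, ?_⟩
    have h2 := plog_mul (p := p) h1 h1
    rw [mul_one] at h2
    simpa using h2
  | insert i s hi ih =>
    obtain ⟨h1, h2⟩ := ih fun j hj => h j (mem_insert_of_mem hj)
    have h3 := h i (mem_insert_self i s)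
    rw [prod_insert hi, sum_insert hi]
    refine ⟨?_, by rw [plog_mul h3 h1, h2]⟩
    rw [show α i * ∏ j ∈ s, α j - 1 = (α i - 1) * ∏ j ∈ s, α j + (∏ j ∈ s, α j - 1) by ring]
    refine (IsUltrametricDist.norm_add_le_max _ _).trans (max_le ?_ h1)
    rw [norm_mul, ← pexp_plog h1, norm_pexp (small_of_le (p := p) (norm_plog_le _)), mul_one]
    exact h3

/-- Integer relations between the logarithms of orbit products. -/
theorem balance_of_log_relation {κ : Type} [Fintype κ] {e : ℕ} {n : κ → ℕ}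
    (hn : ∀ i, 0 < n i ∧ n i < p ^ e - 1) {M : ℕ} (hM : 0 < M)
    (hle : ∀ i, ‖orbitGamma p e (n i) ^ M - 1‖ ≤ rad p) (m : κ → ℚ)
    (hm : ∑ i, (m i : ℂ_[p]) * plog p (orbitGamma p e (n i) ^ M) = 0) :
    ∑ i, m i * (2 * (digitSum p e (n i) : ℚ) - ((e * (p - 1) : ℕ) : ℚ)) = 0 := by
  classical
  set l := fun i => plog p (orbitGamma p e (n i) ^ M)
  obtain ⟨D, hD⟩ := IsLocalization.exist_integer_multiples_of_finite (nonZeroDivisors ℤ) m
  choose z hz using hD
  have hD0 : ((D : ℤ) : ℚ) ≠ 0 := Int.cast_ne_zero.2 (nonZeroDivisors.ne_zero D.2)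
  have hz' : ∀ i, (z i : ℚ) = (D : ℤ) * m i := fun i => by simpa [zsmul_eq_mul] using hz i
  set a := fun i => (z i).toNat
  set b := fun i => (-z i).toNat
  have hab : ∀ i, ((a i : ℤ) - b i) = z i := fun i => Int.toNat_sub_toNat_neg (z i)
  have hzero : ∑ i, (a i : ℂ_[p]) * l i = ∑ i, (b i : ℂ_[p]) * l i := by
    rw [← sub_eq_zero, ← Finset.sum_sub_distrib]
    calc ∑ i, ((a i : ℂ_[p]) * l i - (b i : ℂ_[p]) * l i)
        = ((D : ℤ) : ℂ_[p]) * ∑ i, (m i : ℂ_[p]) * l i := by
          rw [Finset.mul_sum]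
          refine sum_congr rfl fun i _ => ?_
          rw [← sub_mul, ← mul_assoc]
          congr 1
          have h1 := congrArg (fun t : ℤ => (t : ℂ_[p])) (hab i)
          have h2 := congrArg (fun t : ℚ => (t : ℂ_[p])) (hz' i)
          push_cast at h1 h2
          rw [h1, h2]
      _ = 0 := by rw [hm, mul_zero]
  have hexp : ∀ c : κ → ℕ,
      pexp (∑ i, (c i : ℂ_[p]) * l i) = ∏ i, (orbitGamma p e (n i) ^ M) ^ c i := fun c => by
    have hs : ∀ i, Small p (l i) := fun i => small_of_le (p := p) (norm_plog_le _)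
    rw [pexp_sum (p := p) fun i _ => (hs i).mul (IsUltrametricDist.norm_natCast_le_one _ _)]
    exact prod_congr rfl fun i _ => by rw [pexp_nat_mul (hs i), pexp_plog (hle i)]
  have hbal := balance_of_relation hn hM (a := a) (b := b) (by rw [← hexp, ← hexp, hzero])
  simp only [hab] at hbal
  have hq := congrArg (fun t : ℤ => (t : ℚ)) hbal
  push_cast [hz'] at hq
  refine (mul_eq_zero.1 ?_).resolve_left hD0
  rw [Finset.mul_sum]
  push_cast
  simp only [← mul_assoc]
  exact hq

/-- The argument `a / f`. -/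
def fracArg {f : ℕ} (a : ZMod f) : ℤ_[p] := (a.val : ℤ_[p]) * Ring.inverse (f : ℤ_[p])

/-- **The non-vanishing of Ferrero and Greenberg.** -/
theorem sum_plog_ne_zero {f : ℕ} [NeZero f] (hfp : f.Coprime p) {χ : DirichletCharacter ℂ_[p] f}
    (hprim : χ.IsPrimitive) (hodd : χ.Odd) (hχp : χ (p : ZMod f) = 1) :
    ∑ a : ZMod f, χ a * plog p (padicGamma p (fracArg a) ^ gammaExp p) ≠ 0 := fun hzero => by
  classical
  have hne : χ ≠ 1 := fun h1 => by
    have h2 : χ (-1) = -1 := hodd
    rw [h1, MulChar.one_apply isUnit_one.neg] at h2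
    exact two_ne_zero (α := ℂ_[p]) (by linear_combination h2)
  have hf : 1 < f := by
    by_contra h1
    obtain rfl : f = 1 := le_antisymm (not_lt.1 h1) NeZero.one_le
    have h2 : χ (-1) = -1 := hodd
    rw [Subsingleton.elim (-1 : ZMod 1) 1, map_one] at h2
    exact two_ne_zero (α := ℂ_[p]) (by linear_combination h2)
  haveI : Fact (1 < f) := ⟨hf⟩
  obtain ⟨w, hw⟩ := (ZMod.isUnit_iff_coprime p f).2 (Nat.coprime_comm.1 hfp)
  set e := orderOf (p : ZMod f) with he
  have he0 : 0 < e := by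
    rw [he, ← hw, orderOf_units]
    exact orderOf_pos w
  have hfq : f ∣ p ^ e - 1 := by
    rw [← ZMod.natCast_eq_zero_iff, Nat.cast_sub (Nat.one_le_pow _ _ hp.out.pos), Nat.cast_pow, he,
      pow_orderOf_eq_one, Nat.cast_one, sub_self]
  obtain ⟨k, hk⟩ := hfq
  have hk0 : 0 < k := Nat.pos_of_ne_zero fun h0 => by
    rw [h0, mul_zero] at hk
    have := Nat.one_lt_pow he0.ne' hp.out.one_lt
    omega
  set n := fun u : (ZMod f)ˣ => k * (u : ZMod f).val
  have hn : ∀ u, 0 < n u ∧ n u < p ^ e - 1 := fun u => by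
    refine ⟨Nat.mul_pos hk0 (Nat.pos_of_ne_zero fun h0 => u.ne_zero ((ZMod.val_eq_zero _).1 h0)),
      ?_⟩
    rw [hk, mul_comm f]
    exact Nat.mul_lt_mul_of_pos_left (ZMod.val_lt _) hk0
  have hmod : ∀ (u : (ZMod f)ˣ) i,
      n u * p ^ i % (p ^ e - 1) = k * ((u : ZMod f) * (p : ZMod f) ^ i).val := fun u i => by
    rw [hk, mul_comm f, mul_assoc, Nat.mul_mod_mul_left, ← ZMod.val_natCast, Nat.cast_mul,
      Nat.cast_pow, ZMod.natCast_zmod_val]
  have horbit : ∀ u : (ZMod f)ˣ, orbitGamma p e (n u) =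
      ∏ i ∈ range e, padicGamma p (fracArg ((u : ZMod f) * (p : ZMod f) ^ i)) := fun u => by
    refine prod_congr rfl fun i _ => congrArg _ ?_
    refine mul_left_cancel₀ (isUnit_pow_sub_one (p := p) he0.ne').ne_zero ?_
    rw [sub_one_mul_fracPart he0.ne', hmod, hk, fracArg, Nat.cast_mul, Nat.cast_mul,
      mul_left_comm, mul_comm (f : ℤ_[p]) k, mul_assoc (k : ℤ_[p]), Ring.mul_inverse_cancel _ (by
        rw [PadicInt.isUnit_iff, PadicInt.norm_natCast_eq_one_iff]
        exact Nat.coprime_comm.1 hfp), mul_one, mul_comm]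
  -- the digit sums
  have hdigit : ∀ u : (ZMod f)ˣ, (p - 1) * ∑ i ∈ range e, ((u : ZMod f) * (p : ZMod f) ^ i).val =
      f * digitSum p e (n u) := fun u => by
    have hr : ∑ i ∈ range e, rotateDigits p e (n u) (i + 1) =
        k * ∑ i ∈ range e, ((u : ZMod f) * (p : ZMod f) ^ i).val := by
      rw [Finset.mul_sum, ← Finset.sum_range_reflect]
      refine sum_congr rfl fun i hi => ?_
      have := mem_range.1 hi
      rw [← rotateDigits_eq_mod hp.out.two_le (hn u).2 (by omega),
        show e - (e - 1 - i + 1) = i by omega, hmod]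
    have hshift : ∑ i ∈ range e, rotateDigits p e (n u) i =
        ∑ i ∈ range e, rotateDigits p e (n u) (i + 1) := by
      have h1 := Finset.sum_range_succ' (fun i => rotateDigits p e (n u) i) e
      have h2 := Finset.sum_range_succ (fun i => rotateDigits p e (n u) i) e
      rw [rotateDigits_zero] at h1
      rw [rotateDigits_self hp.out.one_le (hn u).2] at h2
      omega
    have hsum : ∑ i ∈ range e, (p * rotateDigits p e (n u) (i + 1) + n u / p ^ i % p) =
        ∑ i ∈ range e, (rotateDigits p e (n u) i + n u / p ^ i % p * p ^ e) :=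
      sum_congr rfl fun i hi => rotateDigits_succ (mem_range.1 hi)
    rw [sum_add_distrib, sum_add_distrib, ← Finset.mul_sum, ← Finset.sum_mul, hshift, hr] at hsum
    refine Nat.eq_of_mul_eq_mul_left hk0 ?_
    have hq : p ^ e = f * k + 1 := by
      have := Nat.one_le_pow e p hp.out.pos
      omega
    rw [hq] at hsum
    show k * ((p - 1) * _) = k * (f * ∑ i ∈ range e, n u / p ^ i % p)
    have hp1 : p * (k * ∑ i ∈ range e, ((u : ZMod f) * (p : ZMod f) ^ i).val) =
        k * ((p - 1) * ∑ i ∈ range e, ((u : ZMod f) * (p : ZMod f) ^ i).val) +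
          k * ∑ i ∈ range e, ((u : ZMod f) * (p : ZMod f) ^ i).val := by
      obtain ⟨q, hq'⟩ : ∃ q, p - 1 = q := ⟨_, rfl⟩
      have hpq : p = q + 1 := by
        rw [← hq']
        exact (Nat.sub_add_cancel hp.out.one_le).symm
      generalize ∑ i ∈ range e, ((u : ZMod f) * (p : ZMod f) ^ i).val = X
      rw [hq', hpq]
      ring
    linarith
  set ℓ := fun a : ZMod f => plog p (padicGamma p (fracArg a) ^ gammaExp p)
  have hlog : ∀ u : (ZMod f)ˣ,
      ‖orbitGamma p e (n u) ^ gammaExp p - 1‖ ≤ rad p ∧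
      plog p (orbitGamma p e (n u) ^ gammaExp p) =
        ∑ i ∈ range e, ℓ ((u : ZMod f) * (p : ZMod f) ^ i) := fun u => by
    rw [horbit, ← prod_pow]
    exact plog_prod _ _ fun i _ => norm_gamma_pow_sub_one_le _
  set l := fun u : (ZMod f)ˣ => plog p (orbitGamma p e (n u) ^ gammaExp p)
  have hunits : ∀ F : ZMod f → ℂ_[p],
      ∑ u : (ZMod f)ˣ, χ u * F u = ∑ a : ZMod f, χ a * F a := fun F =>
    Fintype.sum_of_injective _ Units.val_injective _ _
      (fun a ha => by rw [χ.map_nonunit fun h => ha ⟨h.unit, h.unit_spec⟩, zero_mul]) fun _ => rfl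
  have hshiftp : ∀ (F : ZMod f → ℂ_[p]) (i : ℕ),
      ∑ a : ZMod f, χ a * F (a * (p : ZMod f) ^ i) = ∑ a : ZMod f, χ a * F a := fun F i =>
    Fintype.sum_bijective (fun a => a * (p : ZMod f) ^ i)
      (by rw [← hw, ← Units.val_pow_eq_pow_val]; exact Units.mulRight_bijective _) _ _ fun a => by
        rw [map_mul, map_pow, hχp, one_pow, mul_one]
  have hrel : ∑ u : (ZMod f)ˣ, χ u * l u = 0 := by
    simp only [l, fun u => (hlog u).2]
    rw [hunits fun a => ∑ i ∈ range e, ℓ (a * (p : ZMod f) ^ i)]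
    simp only [Finset.mul_sum]
    rw [Finset.sum_comm]
    exact sum_eq_zero fun i _ => (hshiftp ℓ i).trans hzero
  obtain ⟨-, κ, _, a, c, hc, hcz⟩ := exists_relation_coeffs (p := p) l
    (fun u => small_of_le (p := p) (norm_plog_le _))
    (fun u => by
      rw [pexp_plog (hlog u).1]
      exact ((exists_gauss (hn u).1 (hn u).2).1.isIntegral.pow _).isAlgebraic)
    (fun u => χ u)
    (fun u => (IsIntegral.of_pow (R := ℚ) (n := Nat.totient f) (Nat.totient_pos.2 (NeZero.pos f))
      (by rw [← map_pow, ← Units.val_pow_eq_pow_val, ZMod.pow_totient, Units.val_one, map_one]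
          exact isIntegral_one)).isAlgebraic)
    0 isAlgebraic_zero hrel
  set T := fun u : (ZMod f)ˣ => 2 * (digitSum p e (n u) : ℚ) - ((e * (p - 1) : ℕ) : ℚ) with hT
  have hTc : ∀ u, T u = ∑ j, c u j * T (a j) := fun u => by
    have h := balance_of_log_relation hn gammaExp_pos (fun u => (hlog u).1)
      (fun v => (if v = u then 1 else 0) - ∑ j, if a j = v then c u j else 0) (by
        simp only [Rat.cast_sub, Rat.cast_sum, apply_ite (Rat.cast : ℚ → ℂ_[p]), Rat.cast_one,
          Rat.cast_zero, sub_mul, sum_sub_distrib, Finset.sum_mul, ite_mul, one_mul, zero_mul]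
        rw [sum_comm]
        simp only [Finset.sum_ite_eq, Finset.sum_ite_eq', mem_univ, if_true]
        exact sub_eq_zero.2 (hc u))
    simp only [sub_mul, sum_sub_distrib, Finset.sum_mul, ite_mul, one_mul, zero_mul] at h
    rw [sum_comm] at h
    simp only [Finset.sum_ite_eq, Finset.sum_ite_eq', mem_univ, if_true] at h
    exact sub_eq_zero.1 h
  have hTzero : ∑ u : (ZMod f)ˣ, χ u * (T u : ℂ_[p]) = 0 := by
    rw [sum_congr rfl (g := fun u : (ZMod f)ˣ => χ u * ((∑ j, c u j * T (a j) : ℚ) : ℂ_[p]))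
      fun u _ => by rw [← hTc u]]
    simp only [Rat.cast_sum, Rat.cast_mul, Finset.mul_sum, ← mul_assoc]
    rw [sum_comm]
    exact sum_eq_zero fun j _ => by rw [← Finset.sum_mul, hcz j, zero_mul]
  have hχsum : ∑ u : (ZMod f)ˣ, χ u = 0 := by
    have := hunits fun _ => 1
    simp only [mul_one] at this
    rw [this, MulChar.sum_eq_zero_of_ne_one hne]
  have hS : ∑ u : (ZMod f)ˣ, χ u * (digitSum p e (n u) : ℂ_[p]) = 0 := by
    simp only [hT, Rat.cast_sub, Rat.cast_mul, Rat.cast_ofNat, Rat.cast_natCast, mul_sub,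
      sum_sub_distrib, ← Finset.sum_mul, hχsum, zero_mul, sub_zero, mul_left_comm _ (2 : ℂ_[p]),
      ← Finset.mul_sum] at hTzero
    exact (mul_eq_zero.1 hTzero).resolve_left two_ne_zero
  refine bernoulli_ne_zero_padic hprim hodd ((mul_eq_zero.1 ?_).resolve_left
    (show (((p - 1) * e : ℕ) : ℂ_[p]) ≠ 0 from Nat.cast_ne_zero.2
      (Nat.mul_pos (Nat.sub_pos_of_lt hp.out.one_lt) he0).ne'))
  calc (((p - 1) * e : ℕ) : ℂ_[p]) * ∑ a : ZMod f, χ a * (a.val : ℂ_[p])
      = ((p - 1 : ℕ) : ℂ_[p]) *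
          ∑ i ∈ range e, ∑ a : ZMod f, χ a * ((a * (p : ZMod f) ^ i).val : ℂ_[p]) := by
        simp only [hshiftp fun a => (a.val : ℂ_[p]), sum_const, card_range, nsmul_eq_mul]
        push_cast
        ring
    _ = ∑ u : (ZMod f)ˣ, χ u *
          (((p - 1) * ∑ i ∈ range e, ((u : ZMod f) * (p : ZMod f) ^ i).val : ℕ) : ℂ_[p]) := by
        rw [hunits fun a =>
          (((p - 1) * ∑ i ∈ range e, (a * (p : ZMod f) ^ i).val : ℕ) : ℂ_[p])]
        push_cast
        simp only [Finset.mul_sum]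
        rw [sum_comm]
        exact sum_congr rfl fun _ _ => sum_congr rfl fun _ _ => by ring
    _ = (f : ℂ_[p]) * ∑ u : (ZMod f)ˣ, χ u * (digitSum p e (n u) : ℂ_[p]) := by
        rw [Finset.mul_sum]
        refine sum_congr rfl fun u _ => ?_
        rw [hdigit, Nat.cast_mul]
        ring
    _ = 0 := by rw [hS, mul_zero]

end FA.GrossRegulator
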