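import Fermat.Agent.Root.SummaryGrossKoblitz
import Fermat.Agent.Transcendence.BrumerLog
import Mathlib.FieldTheory.Finite.GaloisField
import Mathlib.FieldTheory.AlgebraicClosure

/-!
# Products of `Γ_p` over an orbit

For `0 < n < p^e - 1` the product `P` of `Γ_p` at the fractional parts of `n p^i / (p^e - 1)` is
algebraic, `(-p)^S P^(p-1)`, `S` the digit sum, being the power of a Gauss sum, of absolute value
`p^(e/2)` in `ℂ` (`exists_gauss`).
-/

set_option autoImplicit false
set_option linter.unusedSectionVars false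
set_option linter.style.haveILetI false

noncomputable section

open Finset FA.GrossKoblitz FA.DworkRationality

namespace FA.GrossRegulator

variable {p : ℕ} [hp : Fact p.Prime]

/-- The digit sum. -/
def digitSum (p e n : ℕ) : ℕ := ∑ i ∈ range e, n / p ^ i % p

variable (p) in
/-- The product over an orbit. -/
def orbitGamma (e n : ℕ) : ℂ_[p] := ∏ i ∈ range e, padicGamma p (fracPart p e n i)

/-- **The Gauss sum behind an orbit.** -/
theorem exists_gauss {e n : ℕ} (hn : 0 < n) (hn' : n < p ^ e - 1) :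
    IsAlgebraic ℚ (orbitGamma p e n) ∧ ∃ G : algebraicClosure ℚ ℂ_[p],
      (G : ℂ_[p]) ^ (p - 1) = (-(p : ℂ_[p])) ^ digitSum p e n * orbitGamma p e n ^ (p - 1) ∧
      ∀ j : algebraicClosure ℚ ℂ_[p] →+* ℂ, ‖j G‖ ^ 2 = (p : ℝ) ^ e := by
  classical
  have he : e ≠ 0 := by rintro rfl; simp at hn'
  set F := GaloisField p e
  haveI : Fintype F := Fintype.ofFinite F
  have hcard : Fintype.card F = p ^ e := by
    rw [← Nat.card_eq_fintype_card, GaloisField.card p e he]
  obtain ⟨ω, hω⟩ := FA.Summary.exists_teichmuller_mulChar p F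
  set ψ : AddChar F ℂ_[p] := (AddChar.zmodChar p (dworkRoot_pow (p := p))).compAddMonoidHom
    (Algebra.trace (ZMod p) F).toAddMonoidHom with hψ
  set χ : MulChar F ℂ_[p] := ω⁻¹ ^ n with hχ
  have hGK := grossKoblitz_field (p := p) F hcard ω hω hn'
  rw [← hψ, ← hχ] at hGK
  -- the values are roots of unity
  have hχint : ∀ x : F, IsIntegral ℚ (χ x) := fun x => by
    by_cases hx : x = 0
    · rw [hx, MulChar.map_zero]
      exact isIntegral_zero
    · refine IsIntegral.of_pow (Nat.sub_pos_of_lt (Fintype.one_lt_card (α := F))) ?_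
      rw [← map_pow, FiniteField.pow_card_sub_one_eq_one x hx, MulChar.map_one]
      exact isIntegral_one
  have hψint : ∀ x : F, IsIntegral ℚ (ψ x) := fun x => by
    rw [hψ, AddChar.compAddMonoidHom_apply, AddChar.zmodChar_apply]
    exact (IsIntegral.of_pow hp.out.pos (by rw [dworkRoot_pow]; exact isIntegral_one)).pow _
  have hval : ∀ x : F, χ x ∈ algebraicClosure ℚ ℂ_[p] ∧ ψ x ∈ algebraicClosure ℚ ℂ_[p] :=
    fun x => ⟨mem_algebraicClosure_iff.2 (hχint x).isAlgebraic,
      mem_algebraicClosure_iff.2 (hψint x).isAlgebraic⟩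
  let χL : MulChar F (algebraicClosure ℚ ℂ_[p]) :=
    { toFun := fun x => ⟨χ x, (hval x).1⟩
      map_one' := Subtype.ext (MulChar.map_one χ)
      map_mul' := fun x y => Subtype.ext (map_mul χ x y)
      map_nonunit' := fun x hx => Subtype.ext (χ.map_nonunit hx) }
  let ψL : AddChar F (algebraicClosure ℚ ℂ_[p]) :=
    { toFun := fun x => ⟨ψ x, (hval x).2⟩
      map_zero_eq_one' := Subtype.ext (AddChar.map_zero_eq_one ψ)
      map_add_eq_mul' := fun x y => Subtype.ext (AddChar.map_add_eq_mul ψ x y) }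
  have hG : ((-gaussSum χL ψL : algebraicClosure ℚ ℂ_[p]) : ℂ_[p]) = -gaussSum χ ψ := by
    simp only [gaussSum, NegMemClass.coe_neg, AddSubmonoidClass.coe_finsetSum, MulMemClass.coe_mul]
    rfl
  set G : algebraicClosure ℚ ℂ_[p] := -gaussSum χL ψL
  have hG' : (G : ℂ_[p]) ^ (p - 1) =
      (-(p : ℂ_[p])) ^ digitSum p e n * orbitGamma p e n ^ (p - 1) := by
    rw [hG, hGK, mul_pow, ← pow_mul, mul_comm _ (p - 1), pow_mul, dworkPi_pow]
    rfl
  refine ⟨?_, G, hG', fun j => ?_⟩
  · have h0 : (-(p : ℂ_[p])) ^ digitSum p e n ≠ 0 :=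
      pow_ne_zero _ (neg_ne_zero.2 natCast_prime_ne_zero)
    have h1 : orbitGamma p e n ^ (p - 1) =
        (G : ℂ_[p]) ^ (p - 1) * ((-(p : ℂ_[p])) ^ digitSum p e n)⁻¹ := by
      rw [hG', mul_comm _ (orbitGamma p e n ^ (p - 1)), mul_inv_cancel_right₀ h0]
    refine (IsIntegral.of_pow (Nat.sub_pos_of_lt hp.out.one_lt) ?_).isAlgebraic
    rw [h1]
    exact ((mem_algebraicClosure_iff.1 G.2).isIntegral.pow _).mul
      ((mem_algebraicClosure_iff.1 (inv_mem (pow_mem (neg_mem (natCast_mem _ p)) _))).isIntegral)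
  -- the absolute value in `ℂ`
  have hψ1 : ψL ≠ 1 := fun h => by
    obtain ⟨x, hx⟩ := Algebra.trace_surjective (ZMod p) F 1
    have h1 : ψ x = 1 := congrArg (fun t : AddChar F (algebraicClosure ℚ ℂ_[p]) =>
      ((t x : algebraicClosure ℚ ℂ_[p]) : ℂ_[p])) h
    rw [hψ, AddChar.compAddMonoidHom_apply, AddChar.zmodChar_apply, LinearMap.toAddMonoidHom_coe,
      hx, ZMod.val_one, pow_one] at h1
    exact dworkRoot_spec.ne_one hp.out.one_lt h1
  have hχ1 : χL ≠ 1 := fun h => by
    obtain ⟨u, hu⟩ := IsCyclic.exists_generator (α := Fˣ)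
    have h1 : χ u = 1 := by
      have := congrArg (fun t : MulChar F (algebraicClosure ℚ ℂ_[p]) =>
        ((t u : algebraicClosure ℚ ℂ_[p]) : ℂ_[p])) h
      simp only [MulChar.one_apply_coe, OneMemClass.coe_one] at this
      exact this
    rw [hχ, MulChar.pow_apply_coe, MulChar.inv_apply', ← Units.val_inv_eq_inv_val, ← map_pow,
      ← Units.val_pow_eq_pow_val] at h1
    set v := u⁻¹ ^ n
    -- the Teichmüller character is injective
    have hv : v = 1 := by
      by_contra hne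
      have h0 : ((v : F) - 1) ≠ 0 := sub_ne_zero.2 fun e0 => hne (Units.ext e0)
      have h2 := hω ((v : F) - 1) 1
      rw [sub_add_cancel, h1, MulChar.map_one, sub_sub_cancel_left, norm_neg] at h2
      have h3 : ω ((v : F) - 1) ^ (Fintype.card F - 1) = 1 := by
        rw [← map_pow, FiniteField.pow_card_sub_one_eq_one _ h0, MulChar.map_one]
      have h4 := congrArg (‖·‖) h3
      simp only [norm_pow, norm_one] at h4
      exact absurd h4 (pow_lt_one₀ (norm_nonneg _) h2
        (Nat.sub_pos_of_lt Fintype.one_lt_card).ne').ne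
    have h5 : orderOf u ∣ n := orderOf_dvd_of_pow_eq_one (by
      rw [← inv_inv (u ^ n), ← inv_pow]
      show v⁻¹ = 1
      rw [hv, inv_one])
    rw [orderOf_eq_card_of_forall_mem_zpowers hu, Nat.card_eq_fintype_card, Fintype.card_units,
      hcard] at h5
    have := Nat.le_of_dvd hn h5
    omega
  set χc := χL.ringHomComp j
  set ψc := j.toMonoidHom.compAddChar ψL
  have hjG : j G = -gaussSum χc ψc := by
    simp only [G, gaussSum, map_neg, map_sum, map_mul]
    rfl
  have hχc : χc ≠ 1 := fun h => hχ1 (MulChar.ext fun u => j.injective (by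
    rw [MulChar.one_apply_coe, map_one]
    exact (congrArg (fun t : MulChar F ℂ => t u) h).trans (MulChar.one_apply_coe u)))
  have hψc : ψc ≠ 1 := fun h => hψ1 (DFunLike.ext _ _ fun x => j.injective (by
    rw [AddChar.one_apply, map_one]
    exact (congrArg (fun t : AddChar F ℂ => t x) h).trans (AddChar.one_apply x)))
  have hkey := gaussSum_mul_gaussSum_eq_card hχc (AddChar.IsPrimitive.of_ne_one hψc)
  rw [← star_gaussSum_eq, ← starRingEnd_apply, Complex.mul_conj', hcard, Nat.cast_pow] at hkey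
  rw [hjG, norm_neg]
  exact_mod_cast hkey

theorem norm_orbitGamma (e n : ℕ) : ‖orbitGamma p e n‖ = 1 := by
  rw [orbitGamma, norm_prod, prod_eq_one fun i _ => norm_padicGamma _]

/-- **A relation between orbit products balances the digit sums.** -/
theorem balance_of_relation {κ : Type*} [Fintype κ] {e : ℕ} {n : κ → ℕ}
    (hn : ∀ i, 0 < n i ∧ n i < p ^ e - 1) {M : ℕ} (hM : 0 < M) {a b : κ → ℕ}
    (h : ∏ i, (orbitGamma p e (n i) ^ M) ^ a i = ∏ i, (orbitGamma p e (n i) ^ M) ^ b i) :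
    ∑ i, ((a i : ℤ) - b i) * (2 * digitSum p e (n i) - ((e * (p - 1) : ℕ) : ℤ)) = 0 := by
  choose G hG hnorm using fun i => (exists_gauss (hn i).1 (hn i).2).2
  set S := fun i => digitSum p e (n i)
  have hprod : ∀ c : κ → ℕ, ∏ i, (G i : ℂ_[p]) ^ ((p - 1) * M * c i) =
      (-(p : ℂ_[p])) ^ (M * ∑ i, S i * c i) *
        (∏ i, (orbitGamma p e (n i) ^ M) ^ c i) ^ (p - 1) := fun c => by
    rw [← prod_pow, Finset.mul_sum, ← prod_pow_eq_pow_sum, ← prod_mul_distrib]
    refine prod_congr rfl fun i _ => ?_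
    rw [mul_assoc, pow_mul, hG, mul_pow, ← pow_mul, ← pow_mul, ← pow_mul, ← pow_mul]
    congr 1 <;> congr 1 <;> ring
  -- in the algebraic numbers
  have key : (∏ i, G i ^ ((p - 1) * M * a i)) *
        (-(p : algebraicClosure ℚ ℂ_[p])) ^ (M * ∑ i, S i * b i) =
      (∏ i, G i ^ ((p - 1) * M * b i)) *
        (-(p : algebraicClosure ℚ ℂ_[p])) ^ (M * ∑ i, S i * a i) := by
    refine Subtype.ext ?_
    push_cast
    rw [hprod, hprod, h]
    ring
  haveI : Algebra.IsAlgebraic ℚ (algebraicClosure ℚ ℂ_[p]) := ⟨fun x => by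
    obtain ⟨P, hP0, hP⟩ := mem_algebraicClosure_iff.1 x.2
    refine ⟨P, hP0, Subtype.ext ?_⟩
    show (algebraicClosure ℚ ℂ_[p]).val (Polynomial.aeval x P) = 0
    rw [← Polynomial.aeval_algHom_apply]
    exact hP⟩
  let j : algebraicClosure ℚ ℂ_[p] →+* ℂ :=
    (IsAlgClosed.lift : algebraicClosure ℚ ℂ_[p] →ₐ[ℚ] ℂ).toRingHom
  have hsq : ∀ (c : κ → ℕ) (d : ℕ), ‖j ((∏ i, G i ^ ((p - 1) * M * c i)) *
      (-(p : algebraicClosure ℚ ℂ_[p])) ^ d)‖ ^ 2 =
        (p : ℝ) ^ (e * (p - 1) * M * (∑ i, c i) + 2 * d) := fun c d => by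
    rw [map_mul, norm_mul, mul_pow, map_prod, norm_prod, ← prod_pow, pow_add, Finset.mul_sum,
      ← prod_pow_eq_pow_sum, map_pow, norm_pow, map_neg, map_natCast,
      norm_neg, Complex.norm_natCast,
      ← pow_mul, mul_comm d 2]
    congr 1
    refine prod_congr rfl fun i _ => ?_
    rw [map_pow, norm_pow, ← pow_mul, mul_comm _ 2, pow_mul, hnorm i j, ← pow_mul]
    congr 1
    ring
  have h2 := congrArg (fun z => ‖j z‖ ^ 2) key
  simp only [hsq] at h2
  have h3 := (pow_right_injective₀ (by exact_mod_cast hp.out.pos)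
    (by exact_mod_cast hp.out.ne_one)) h2
  zify at h3
  refine (mul_eq_zero.1 ?_).resolve_left (by exact_mod_cast hM.ne' : (M : ℤ) ≠ 0)
  have hsum : ∑ i, ((a i : ℤ) - b i) * (2 * S i - ((e * (p - 1) : ℕ) : ℤ)) =
      2 * (∑ i, (S i : ℤ) * a i) - 2 * (∑ i, (S i : ℤ) * b i) -
        ((e * (p - 1) : ℕ) : ℤ) * ((∑ i, (a i : ℤ)) - ∑ i, (b i : ℤ)) := by
    rw [← Finset.sum_sub_distrib, Finset.mul_sum, Finset.mul_sum, Finset.mul_sum,
      ← Finset.sum_sub_distrib, ← Finset.sum_sub_distrib]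
    exact sum_congr rfl fun i _ => by ring
  rw [hsum]
  push_cast at h3 ⊢
  linear_combination -h3

end FA.GrossRegulator
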