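import Fermat.Agent.GrossRegulator.FerreroGreenberg
import Mathlib.NumberTheory.LegendreSymbol.ZModChar

/-!
# The quarter

For `p ≡ 1 (mod 4)` the character modulo `4` meets the hypotheses, so the logarithms of
`Γ_p (1/4)` and `Γ_p (3/4)` differ (`plog_quarter_ne`).
-/

set_option autoImplicit false
set_option linter.style.haveILetI false

noncomputable section

open FA.GrossKoblitz FA.Brumer

namespace FA.GrossRegulator

variable {p : ℕ} [hp : Fact p.Prime]

/-- **The case `f = 4`.** -/
theorem plog_quarter_ne (h4 : p % 4 = 1) :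
    plog p (padicGamma p ((1 : ℤ_[p]) * Ring.inverse (4 : ℤ_[p])) ^ gammaExp p) ≠
      plog p (padicGamma p ((3 : ℤ_[p]) * Ring.inverse (4 : ℤ_[p])) ^ gammaExp p) := fun heq => by
  set χ : DirichletCharacter ℂ_[p] 4 := ZMod.χ₄.ringHomComp (Int.castRingHom ℂ_[p])
  have hval : ∀ a : ZMod 4, χ a = (ZMod.χ₄ a : ℂ_[p]) := fun a => rfl
  have hodd : χ.Odd := by
    show χ (-1) = -1
    rw [hval, show ZMod.χ₄ (-1 : ZMod 4) = -1 from rfl]
    norm_num
  have hprim : χ.IsPrimitive := by
    obtain ⟨i, hi, hc⟩ := (Nat.dvd_prime_pow (m := 2) Nat.prime_two).1 χ.conductor_dvd_level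
    rw [DirichletCharacter.isPrimitive_def, hc]
    rcases Nat.lt_or_ge i 2 with hlt | hge
    · exfalso
      have h2 : χ.FactorsThrough 2 :=
        (DirichletCharacter.mem_conductorSet_iff_conductor_dvd χ (by norm_num : 2 ∣ 4)).2
          (hc ▸ (pow_dvd_pow 2 (Nat.le_of_lt_succ hlt)).trans (by norm_num))
      have h1 := MonoidHom.mem_ker.1 ((DirichletCharacter.factorsThrough_iff_ker_unitsMap
        (by norm_num : 2 ∣ 4)).1 h2 (x := -1) (MonoidHom.mem_ker.2 (Subsingleton.elim _ _)))
      have h3 := congrArg Units.val h1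
      rw [MulChar.coe_toUnitHom, Units.val_neg, Units.val_one,
        show χ (-1) = -1 from hodd, Units.val_one] at h3
      exact two_ne_zero (α := ℂ_[p]) (by linear_combination -h3)
    · rw [show i = 2 by omega]
      norm_num
  have hp4 : Nat.Coprime 4 p := by
    rw [Nat.coprime_comm, hp.out.coprime_iff_not_dvd]
    intro hd
    have := Nat.le_of_dvd (by norm_num) hd
    have := hp.out.two_le
    omega
  refine sum_plog_ne_zero hp4 hprim hodd ?_ ?_
  · rw [hval, ← ZMod.natCast_mod, h4, Nat.cast_one, MulChar.map_one, Int.cast_one]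
  · rw [show (Finset.univ : Finset (ZMod 4)) = {0, 1, 2, 3} by decide,
      Finset.sum_insert (by decide), Finset.sum_insert (by decide), Finset.sum_insert (by decide),
      Finset.sum_singleton]
    simp only [hval]
    rw [show ZMod.χ₄ (0 : ZMod 4) = 0 from rfl, show ZMod.χ₄ (1 : ZMod 4) = 1 from rfl,
      show ZMod.χ₄ (2 : ZMod 4) = 0 from rfl, show ZMod.χ₄ (3 : ZMod 4) = -1 from rfl]
    have e1 : fracArg (p := p) (1 : ZMod 4) = 1 * Ring.inverse 4 := by
      show (((1 : ℕ) : ℤ_[p])) * _ = _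
      norm_num
    have e3 : fracArg (p := p) (3 : ZMod 4) = 3 * Ring.inverse 4 := by
      show (((3 : ℕ) : ℤ_[p])) * _ = _
      norm_num
    rw [e1, e3, heq]
    push_cast
    ring

end FA.GrossRegulator
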