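import Fermat.Agent.GrossRegulator.Regulator

/-!
# The rank of the regulator of Gross

With `H = D ∪ D ρ` there are `(G : H)` independent minus `p`-units and no more;
`2 (G : H) = (G : D)` if `ρ ∉ D`, and all minus `p`-units are roots of unity if `ρ ∈ D`. In `ℚ(ζ_m)`, `p ≡ 1 (mod m)`,
`D` is trivial (`absStab_eq_bot`).
-/

set_option autoImplicit false
set_option linter.unusedSectionVars false
set_option linter.style.haveILetI false

noncomputable section

open NumberField Finset
open scoped Classical IsMulCommutative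

namespace FA.GrossRegulator

variable {p : ℕ} [hp : Fact p.Prime] {K : Type} [Field K] [NumberField K]
variable [IsAbelianGalois ℚ K] [IsCMField K] (ι : K →+* ℂ_[p])

theorem conjQ_inv : (conjQ K)⁻¹ = conjQ K := inv_eq_of_mul_eq_one_left conjQ_sq

/-- `D ∪ D ρ`. -/
def pairGroup : Subgroup Gal(K/ℚ) where
  carrier := {σ | σ ∈ absStab ι ∨ σ * conjQ K ∈ absStab ι}
  one_mem' := Or.inl (one_mem _)
  inv_mem' := fun {σ} h => h.imp inv_mem fun h' => by
    rw [← conjQ_inv, ← mul_inv_rev, mul_comm]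
    exact inv_mem h'
  mul_mem' := fun {σ τ} hσ hτ => by
    rcases hσ with hσ | hσ <;> rcases hτ with hτ | hτ
    · exact Or.inl (mul_mem hσ hτ)
    · exact Or.inr (by rw [mul_assoc]; exact mul_mem hσ hτ)
    · exact Or.inr (by rw [mul_right_comm]; exact mul_mem hσ hτ)
    · refine Or.inl ?_
      have h := mul_mem hσ hτ
      rwa [mul_mul_mul_comm, conjQ_sq, mul_one] at h

theorem mem_pairGroup {σ : Gal(K/ℚ)} :
    σ ∈ pairGroup ι ↔ σ ∈ absStab ι ∨ σ * conjQ K ∈ absStab ι := Iff.rfl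

/-- `2 (G : H) = (G : D)` if `ρ ∉ D`. -/
theorem two_mul_index (hρ : conjQ K ∉ absStab ι) :
    2 * (pairGroup ι).index = (absStab ι).index := by
  have hle : absStab ι ≤ pairGroup ι := fun σ h => Or.inl h
  rw [← Subgroup.relIndex_mul_index hle]
  congr 1
  symm
  rw [Subgroup.relIndex, Subgroup.index_eq_two_iff]
  refine ⟨⟨conjQ K, Or.inr (by rw [conjQ_sq]; exact one_mem _)⟩, fun b => ?_⟩
  simp only [Subgroup.mem_subgroupOf, Subgroup.coe_mul]
  rcases b.2 with h | h
  · refine Or.inr ⟨h, fun h' => hρ ?_⟩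
    have := mul_mem (inv_mem h) h'
    rwa [inv_mul_cancel_left] at this
  · refine Or.inl ⟨h, fun h' => hρ ?_⟩
    have := mul_mem (inv_mem h') h
    rwa [inv_mul_cancel_left] at this

/-- **Independent minus `p`-units exist.** -/
theorem exists_independent (hρ : conjQ K ∉ absStab ι) :
    ∃ u : Gal(K/ℚ) ⧸ pairGroup ι → Kˣ, (∀ q, u q ∈ minusPUnits p K) ∧
      ∀ n : Gal(K/ℚ) ⧸ pairGroup ι → ℤ, IsOfFinOrder (∏ q, u q ^ n q) → n = 0 := by
  obtain ⟨B⟩ := nonempty_basic ι
  refine ⟨fun q => gAct q.out⁻¹ B.u₀, fun q => gAct_mem B.mem _, fun n hn => funext fun q₀ => ?_⟩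
  have h := valHom_eq_zero_of_isOfFinOrder ι hn q₀.out
  rw [ofMul_prod, map_sum] at h
  simp only [ofMul_zpow, map_zsmul, valHom_gAct, B.val, zsmul_eq_mul] at h
  rw [sum_eq_single q₀ (fun q _ hq => by
      have hnot : q₀.out * q.out⁻¹ ∉ pairGroup ι := fun hm => hq (by
        rw [← q.out_eq', ← q₀.out_eq', QuotientGroup.eq, mul_comm]
        exact hm)
      rw [mem_pairGroup, not_or] at hnot
      simp [weight, hnot.1, hnot.2]) (fun h0 => absurd (mem_univ _) h0),
    mul_inv_cancel] at h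
  have hw : weight ι (1 : Gal(K/ℚ)) = 1 := by simp [weight, hρ]
  rw [hw, Int.cast_one, mul_one] at h
  exact_mod_cast (mul_eq_zero.1 h).resolve_right B.c_neg.ne

/-- **There are no more.** -/
theorem card_le_of_independent {κ : Type} [Fintype κ] {u : κ → Kˣ}
    (hu : ∀ i, u i ∈ minusPUnits p K)
    (hind : ∀ n : κ → ℤ, IsOfFinOrder (∏ i, u i ^ n i) → n = 0) :
    Fintype.card κ ≤ (pairGroup ι).index := by
  obtain ⟨B⟩ := nonempty_basic ι
  have hli : LinearIndependent ℚ
      fun i (q : Gal(K/ℚ) ⧸ pairGroup ι) => (B.kVec (u i) q.out : ℚ) := by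
    refine Fintype.linearIndependent_iff.2 fun c hc => ?_
    refine Fintype.linearIndependent_iff.1 (B.linearIndependent_kVec hu hind) c (funext fun σ => ?_)
    have h1 := congrFun hc (σ : Gal(K/ℚ) ⧸ pairGroup ι)
    simp only [Finset.sum_apply, Pi.smul_apply, smul_eq_mul, Pi.zero_apply] at h1 ⊢
    obtain ⟨⟨h, hh⟩, he⟩ := QuotientGroup.mk_out_eq_mul (pairGroup ι) σ
    rw [he] at h1
    rcases hh with hD | hD
    · simpa only [B.kVec_mul _ hD] using h1
    · have e : ∀ i, B.kVec (u i) (σ * h) = -B.kVec (u i) σ := fun i => by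
        rw [← neg_neg (B.kVec (u i) (σ * h)), ← B.kVec_conj (hu i), mul_assoc, B.kVec_mul _ hD]
      simp only [e, Int.cast_neg, mul_neg, sum_neg_distrib, neg_eq_zero] at h1
      exact h1
  have h := hli.fintype_card_le_finrank
  rwa [Module.finrank_pi, ← Nat.card_eq_fintype_card (α := Gal(K/ℚ) ⧸ pairGroup ι)] at h

/-- **If `ρ ∈ D` every minus `p`-unit is a root of unity.** -/
theorem isOfFinOrder_of_conj_mem (hρ : conjQ K ∈ absStab ι) {u : Kˣ}
    (hu : u ∈ minusPUnits p K) : IsOfFinOrder u := by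
  obtain ⟨B⟩ := nonempty_basic ι
  refine isOfFinOrder_of_valHom ι hu fun σ => ?_
  have h1 := B.kVec_conj hu σ
  rw [B.kVec_mul u hρ] at h1
  have h2 := B.kVec_spec u σ
  rw [show B.kVec u σ = 0 by omega, Int.cast_zero, zero_mul] at h2
  exact (mul_eq_zero.1 h2).resolve_left (Nat.cast_ne_zero.2 B.h_pos.ne')

theorem conjQ_ne_one : conjQ K ≠ 1 := fun h => IsCMField.complexConj_ne_one K
  (AlgEquiv.ext fun x => by rw [← conjQ_apply, h]; rfl)

/-- **In `ℚ(ζ_m)`, `p ≡ 1 (mod m)`, the decomposition group is trivial.** -/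
theorem absStab_eq_bot {m : ℕ} [NeZero m] [IsCyclotomicExtension {m} ℚ K] (hm : m ∣ p - 1) :
    absStab ι = ⊥ := by
  refine (Subgroup.eq_bot_iff_forall _).2 fun σ hσ => ?_
  have hζ := IsCyclotomicExtension.zeta_spec m ℚ K
  set ζ := IsCyclotomicExtension.zeta m ℚ K
  suffices hfix : σ ζ = ζ by
    exact AlgEquiv.coe_toAlgHom_injective ((hζ.powerBasis ℚ).algHom_ext
      (by rw [hζ.powerBasis_gen ℚ]; exact hfix))
  set z : 𝓞 K := ⟨ζ, hζ.isIntegral (NeZero.pos m)⟩
  haveI := (isPrime_primeOf ι).isMaximal (primeOf_ne_bot ι)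
  letI := Ideal.Quotient.field (primeOf ι)
  haveI : CharP (𝓞 K ⧸ primeOf ι) p := by
    refine (CharP.charP_iff_prime_eq_zero hp.out).2 ?_
    rw [← map_natCast (Ideal.Quotient.mk (primeOf ι)), Ideal.Quotient.eq_zero_iff_mem]
    exact natPrime_mem_primeOf ι
  set c := ZMod.castHom (dvd_refl p) (𝓞 K ⧸ primeOf ι)
  -- the root of unity is congruent to an integer
  obtain ⟨a, ha⟩ : ∃ a, c a = Ideal.Quotient.mk (primeOf ι) z := by
    by_contra hne
    push Not at hne
    set q := Ideal.Quotient.mk (primeOf ι) z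
    set P : Polynomial (𝓞 K ⧸ primeOf ι) := Polynomial.X ^ p - Polynomial.X
    have hP0 : P ≠ 0 := FiniteField.X_pow_card_sub_X_ne_zero _ hp.out.one_lt
    have hzp : q ^ p = q := by
      have h1 : q ^ m = 1 := by
        rw [← map_pow, show z ^ m = 1 from RingOfIntegers.ext (by
          simp only [map_pow, map_one]
          exact hζ.pow_eq_one),
          map_one]
      obtain ⟨k, hk⟩ := hm
      have hpk : p = m * k + 1 := by have := hp.out.two_le; omega
      calc q ^ p = q ^ (m * k + 1) := congrArg (q ^ ·) hpk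
        _ = q := by rw [pow_succ, pow_mul, h1, one_pow, one_mul]
    have hsub : insert q (univ.image c) ⊆ P.roots.toFinset := by
      intro x hx
      rw [Multiset.mem_toFinset, Polynomial.mem_roots hP0, Polynomial.IsRoot, Polynomial.eval_sub,
        Polynomial.eval_pow, Polynomial.eval_X, sub_eq_zero]
      rcases Finset.mem_insert.1 hx with rfl | hx
      · exact hzp
      · obtain ⟨b, -, rfl⟩ := Finset.mem_image.1 hx
        rw [← map_pow, ZMod.pow_card]
    have hcard := (Finset.card_le_card hsub).trans ((Multiset.toFinset_card_le _).trans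
      (Polynomial.card_roots' P))
    rw [Finset.card_insert_of_notMem (fun h => by
        obtain ⟨b, -, hb⟩ := Finset.mem_image.1 h
        exact hne b hb), Finset.card_image_of_injective _ c.injective, card_univ, ZMod.card,
      FiniteField.X_pow_card_sub_X_natDegree_eq _ hp.out.one_lt] at hcard
    omega
  rw [← ZMod.natCast_zmod_val a, map_natCast, ← map_natCast (Ideal.Quotient.mk (primeOf ι)),
    eq_comm, Ideal.Quotient.mk_eq_mk_iff_sub_mem, mem_primeOf] at ha
  change ‖ι (ζ - algebraMap (𝓞 K) K (a.val : 𝓞 K))‖ < 1 at ha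
  rw [map_natCast] at ha
  have h1 : ‖ι (σ ζ - (a.val : K))‖ < 1 := by
    have h3 := ha
    rw [← mem_absStab.1 hσ, map_sub σ, map_natCast] at h3
    exact h3
  have h2 : ‖ι (σ ζ - ζ)‖ < 1 := by
    rw [show σ ζ - ζ = (σ ζ - (a.val : K)) + -(ζ - (a.val : K)) by ring, map_add, map_neg]
    refine (IsUltrametricDist.norm_add_le_max _ _).trans_lt (max_lt h1 ?_)
    rw [norm_neg]
    exact ha
  by_contra hne
  set η := σ ζ / ζ
  have hη1 : η ≠ 1 := fun e => hne ((div_eq_one_iff_eq (hζ.ne_zero (NeZero.ne m))).1 e)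
  have hηm : η ^ m = 1 := by
    rw [div_pow, hζ.pow_eq_one, ← map_pow, hζ.pow_eq_one, map_one, div_one]
  have hsum : ∑ i ∈ range m, η ^ i = 0 := by
    have h3 := geom_sum_mul η m
    rw [hηm, sub_self] at h3
    exact (mul_eq_zero.1 h3).resolve_right (sub_ne_zero.2 hη1)
  have hnormz : ‖ι ζ‖ = 1 :=
    (pow_eq_one_iff_of_nonneg (norm_nonneg _) (NeZero.ne m)).1 (by
      rw [← norm_pow, ← map_pow, hζ.pow_eq_one, map_one, norm_one])
  have hsmall : ‖ι η - 1‖ < 1 := by
    have e : ι η - 1 = ι (σ ζ - ζ) / ι ζ := by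
      rw [map_div₀, map_sub, sub_div, div_self ((map_ne_zero ι).2 (hζ.ne_zero (NeZero.ne m)))]
    rwa [e, norm_div, hnormz, div_one]
  have hη : ‖ι η‖ ≤ 1 := le_of_eq ((pow_eq_one_iff_of_nonneg (norm_nonneg _) (NeZero.ne m)).1
    (by rw [← norm_pow, ← map_pow, hηm, map_one, norm_one]))
  have hlt : ‖∑ i ∈ range m, (ι η ^ i - 1)‖ < 1 := by
    refine lt_of_le_of_lt (IsUltrametricDist.norm_sum_le_of_forall_le_of_nonneg (norm_nonneg _)
      fun i _ => ?_) hsmall
    rw [← geom_sum_mul, norm_mul]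
    refine mul_le_of_le_one_left (norm_nonneg _) ?_
    refine IsUltrametricDist.norm_sum_le_of_forall_le_of_nonneg zero_le_one fun k _ => ?_
    rw [norm_pow]
    exact pow_le_one₀ (norm_nonneg _) hη
  have hzero : ∑ i ∈ range m, ι η ^ i = 0 := by
    rw [← map_zero ι, ← hsum, map_sum]
    exact sum_congr rfl fun i _ => (map_pow ι η i).symm
  rw [sum_sub_distrib, hzero, sum_const, card_range, nsmul_eq_mul, mul_one] at hlt
  have hm1 : ‖(m : ℂ_[p])‖ = 1 := by
    refine FA.GrossKoblitz.norm_natCast_eq_one fun h => ?_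
    have := Nat.le_of_dvd (Nat.sub_pos_of_lt hp.out.one_lt) (h.trans hm)
    have := hp.out.one_lt
    omega
  rw [zero_sub, norm_neg, hm1] at hlt
  exact lt_irrefl _ hlt

end FA.GrossRegulator
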