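import Fermat.Agent.Transcendence.BrumerExp
import Mathlib.NumberTheory.NumberField.CMField
import Mathlib.NumberTheory.NumberField.InfinitePlace.Embeddings
import Mathlib.FieldTheory.Galois.Abelian
import Mathlib.NumberTheory.Padics.Complex
import Mathlib.NumberTheory.NumberField.ClassNumber
import Mathlib.Analysis.SpecialFunctions.Log.Basic

/-!
# The minus `p`-units of a Galois CM field

For an embedding `ι` in `ℂ_p` with stabiliser `D` of the absolute value `‖ι ·‖`: a minus `p`-unit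
of absolute value one at all conjugates of `ι` is a root of unity (`isOfFinOrder_of_norm`), and
there is one with `log ‖ι σ u‖ = c T(σ)`, `T = [σ ∈ D] - [σ ρ ∈ D]` (`exists_minusPUnit`).
-/

set_option autoImplicit false
set_option linter.unusedSectionVars false
set_option linter.style.haveILetI false

noncomputable section

open NumberField
open scoped Classical

namespace FA.GrossRegulator

variable {p : ℕ} [hp : Fact p.Prime] {K : Type} [Field K] [NumberField K]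

/-- The stabiliser of the absolute value of `ι`: the decomposition group. -/
def absStab (ι : K →+* ℂ_[p]) : Subgroup Gal(K/ℚ) where
  carrier := {σ | ∀ x, ‖ι (σ x)‖ = ‖ι x‖}
  one_mem' := fun _ => rfl
  mul_mem' := fun {σ τ} hσ hτ x => by
    rw [AlgEquiv.mul_apply, hσ, hτ]
  inv_mem' := fun {σ} hσ x => by
    have h := hσ (σ⁻¹ x)
    rwa [← AlgEquiv.mul_apply, mul_inv_cancel, AlgEquiv.one_apply, eq_comm] at h

theorem mem_absStab {ι : K →+* ℂ_[p]} {σ : Gal(K/ℚ)} :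
    σ ∈ absStab ι ↔ ∀ x, ‖ι (σ x)‖ = ‖ι x‖ := Iff.rfl

variable (K) in
/-- Complex conjugation over `ℚ`. -/
def conjQ [IsCMField K] : Gal(K/ℚ) := (IsCMField.complexConj K).restrictScalars ℚ

theorem conjQ_apply [IsCMField K] (x : K) : conjQ K x = IsCMField.complexConj K x := rfl

theorem conjQ_sq [IsCMField K] : conjQ K * conjQ K = 1 :=
  AlgEquiv.ext fun x => IsCMField.complexConj_apply_apply K x

/-- A `p`-unit with product with its conjugate equal to `1`. -/
def IsMinusPUnit (p : ℕ) [IsCMField K] (u : Kˣ) : Prop :=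
  (∃ m : ℕ, IsIntegral ℤ ((p : K) ^ m * u) ∧ IsIntegral ℤ ((p : K) ^ m * (u : K)⁻¹)) ∧
    (u : K) * IsCMField.complexConj K u = 1

variable (ι : K →+* ℂ_[p])

theorem norm_le_one_of_isIntegral {x : K} (hx : IsIntegral ℤ x) : ‖ι x‖ ≤ 1 := by
  obtain ⟨f, hf, hroot⟩ := hx
  refine FA.Brumer.norm_le_one_of_integral ⟨f, hf, ?_⟩
  have h := congrArg ι hroot
  rw [Polynomial.hom_eval₂, map_zero] at h
  convert h using 2
  all_goals first | rfl | exact RingHom.ext_int _ _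

theorem isAlgebraic_map (x : K) : IsAlgebraic ℚ (ι x) :=
  (Algebra.IsAlgebraic.isAlgebraic (R := ℚ) x).algHom ι.toRatAlgHom

/-- The elements integral at the conjugates of `ι` and away from `p`. -/
def localRing : Subring K where
  carrier := {t | (∀ σ : Gal(K/ℚ), ‖ι (σ t)‖ ≤ 1) ∧ ∃ m : ℕ, IsIntegral ℤ ((p : K) ^ m * t)}
  one_mem' := ⟨fun σ => by rw [map_one, map_one, norm_one], 0, by simpa using isIntegral_one⟩
  zero_mem' := ⟨fun σ => by rw [map_zero, map_zero, norm_zero]; exact zero_le_one,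
    0, by simpa using isIntegral_zero⟩
  neg_mem' := fun {t} ⟨h, m, hm⟩ => ⟨fun σ => by rw [map_neg, map_neg, norm_neg]; exact h σ,
    m, by rw [mul_neg]; exact hm.neg⟩
  mul_mem' := fun {s t} ⟨h, m, hm⟩ ⟨h', m', hm'⟩ => ⟨fun σ => by
      rw [map_mul, map_mul, norm_mul]
      exact mul_le_one₀ (h σ) (norm_nonneg _) (h' σ),
    m + m', by rw [pow_add, mul_mul_mul_comm]; exact hm.mul hm'⟩
  add_mem' := fun {s t} ⟨h, m, hm⟩ ⟨h', m', hm'⟩ => ⟨fun σ => by
      rw [map_add, map_add]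
      exact (IsUltrametricDist.norm_add_le_max _ _).trans (max_le (h σ) (h' σ)),
    m + m', by
      have hp' : ∀ k, IsIntegral ℤ ((p : K) ^ k) := fun k => (isIntegral_algebraMap (x := (p : ℤ))
        |> fun h => by simpa using h.pow k)
      rw [mul_add]
      refine IsIntegral.add ?_ ?_
      · rw [add_comm m, pow_add, mul_assoc]
        exact (hp' m').mul hm
      · rw [pow_add, mul_assoc]
        exact (hp' m).mul hm'⟩

theorem mem_localRing {t : K} : t ∈ localRing ι ↔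
    (∀ σ : Gal(K/ℚ), ‖ι (σ t)‖ ≤ 1) ∧ ∃ m : ℕ, IsIntegral ℤ ((p : K) ^ m * t) := Iff.rfl

variable [IsGalois ℚ K]

/-- **Such elements are integral.** -/
theorem isIntegral_of_mem_localRing {x : K} (hx : x ∈ localRing ι) : IsIntegral ℤ x := by
  have hint := Algebra.IsIntegral.isIntegral (R := ℚ) x
  set P := minpoly ℚ x with hP
  have hroots : ∀ r ∈ (P.map (algebraMap ℚ K)).roots, r ∈ localRing ι := fun r hr => by
    obtain ⟨σ, rfl⟩ : ∃ σ : Gal(K/ℚ), σ x = r := by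
      refine minpoly.exists_algEquiv_of_root' (Algebra.IsAlgebraic.isAlgebraic x) ?_
      rw [Polynomial.mem_roots', Polynomial.IsRoot, Polynomial.eval_map,
        ← Polynomial.aeval_def] at hr
      exact hr.2
    obtain ⟨h, m, hm⟩ := hx
    exact ⟨fun τ => by rw [← AlgEquiv.mul_apply]; exact h _, m, by
      have := hm.map ((σ : K →ₐ[ℚ] K).toRingHom.toIntAlgHom)
      simpa using this⟩
  have hlift : P.map (algebraMap ℚ K) ∈ Polynomial.lifts (localRing ι).subtype := by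
    rw [(Normal.splits' (F := ℚ) x).eq_prod_roots_of_monic ((minpoly.monic hint).map _)]
    refine Subsemiring.multiset_prod_mem _ _ fun q hq => ?_
    obtain ⟨r, hr, rfl⟩ := Multiset.mem_map.1 hq
    rw [sub_eq_add_neg, ← Polynomial.C_neg]
    exact add_mem (Polynomial.X_mem_lifts _)
      (Polynomial.C_mem_lifts (localRing ι).subtype ⟨-r, neg_mem (hroots r hr)⟩)
  have hcoeff : ∀ n, ∃ N : ℤ, (N : ℚ) = P.coeff n := fun n => by
    obtain ⟨⟨c, hc⟩, hc'⟩ := (Polynomial.lifts_iff_coeff_lifts _).1 hlift n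
    rw [Polynomial.coeff_map] at hc'
    change c = _ at hc'
    subst hc'
    obtain ⟨h1, m, hm⟩ := hc
    have h1' := h1 1
    rw [AlgEquiv.one_apply, eq_ratCast, map_ratCast] at h1'
    have h2 : ‖((P.coeff n : ℚ) : ℚ_[p])‖ ≤ 1 := by
      rw [← PadicComplex.norm_extends' p]
      refine le_of_eq_of_le ?_ h1'
      show ‖algebraMap ℚ_[p] ℂ_[p] _‖ = _
      rw [map_ratCast]
    rw [← map_natCast (algebraMap ℚ K) p, ← map_pow, ← map_mul,
      isIntegral_algebraMap_iff (algebraMap ℚ K).injective,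
      IsIntegrallyClosed.isIntegral_iff] at hm
    obtain ⟨M, hM⟩ := hm
    have hp0 : ((p : ℚ) ^ m) ≠ 0 := pow_ne_zero _ (Nat.cast_ne_zero.2 hp.out.ne_zero)
    have h3 : ‖(M : ℚ_[p])‖ ≤ (p : ℝ) ^ (-(m : ℤ)) := by
      have e := congrArg (fun t : ℚ => ‖(t : ℚ_[p])‖) hM
      simp only [eq_intCast, Rat.cast_intCast, Rat.cast_mul, Rat.cast_pow, Rat.cast_natCast,
        norm_mul, norm_pow, Padic.norm_p] at e
      rw [e, zpow_neg, zpow_natCast, inv_pow]
      exact mul_le_of_le_one_right (by positivity) h2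
    obtain ⟨N, rfl⟩ := (Padic.norm_int_le_pow_iff_dvd M m).1 h3
    refine ⟨N, mul_left_cancel₀ hp0 ?_⟩
    rw [← hM, eq_intCast]
    push_cast
    rfl
  have hl : P ∈ Polynomial.lifts (Int.castRingHom ℚ) :=
    (Polynomial.lifts_iff_coeff_lifts _).2 hcoeff
  obtain ⟨Q, hQ, -, hmon⟩ := Polynomial.lifts_and_natDegree_eq_and_monic hl (minpoly.monic hint)
  refine ⟨Q, hmon, ?_⟩
  have h0 := minpoly.aeval ℚ x
  rwa [← hP, ← hQ, Polynomial.aeval_def, Polynomial.eval₂_map,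
    Subsingleton.elim ((algebraMap ℚ K).comp (Int.castRingHom ℚ)) (algebraMap ℤ K)] at h0

/-- **A minus `p`-unit of absolute value one over `p` is a root of unity.** -/
theorem isOfFinOrder_of_norm [IsCMField K] {u : Kˣ} (hu : IsMinusPUnit p u)
    (h : ∀ σ : Gal(K/ℚ), ‖ι (σ u)‖ = 1) : IsOfFinOrder u := by
  obtain ⟨⟨m, hm, -⟩, h1⟩ := hu
  have hint : IsIntegral ℤ (u : K) :=
    isIntegral_of_mem_localRing ι ⟨fun σ => (h σ).le, m, hm⟩
  have habs : ∀ φ : K →+* ℂ, ‖φ u‖ = 1 := fun φ => by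
    have e := congrArg φ h1
    rw [map_mul, IsCMField.complexEmbedding_complexConj, Complex.mul_conj', map_one] at e
    have e' : ‖φ u‖ ^ 2 = 1 := by exact_mod_cast e
    exact (pow_left_inj₀ (norm_nonneg _) zero_le_one two_ne_zero).1 (by rw [e', one_pow])
  obtain ⟨n, hn, hn'⟩ := NumberField.Embeddings.pow_eq_one_of_norm_eq_one K ℂ hint habs
  exact isOfFinOrder_iff_pow_eq_one.2 ⟨n, hn, Units.ext (by simpa using hn')⟩

/-- The prime of `ι`. -/
def primeOf : Ideal (𝓞 K) where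
  carrier := {y | ‖ι (y : K)‖ < 1}
  zero_mem' := by simp
  add_mem' := fun {a b} ha hb => by
    show ‖ι ((a : K) + (b : K))‖ < 1
    rw [map_add]
    exact (IsUltrametricDist.norm_add_le_max _ _).trans_lt (max_lt ha hb)
  smul_mem' := fun c x hx => by
    show ‖ι ((c : K) * (x : K))‖ < 1
    rw [map_mul, norm_mul]
    exact mul_lt_one_of_nonneg_of_lt_one_right
      (norm_le_one_of_isIntegral ι c.isIntegral_coe) (norm_nonneg _) hx

theorem mem_primeOf {y : 𝓞 K} : y ∈ primeOf ι ↔ ‖ι (y : K)‖ < 1 := Iff.rfl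

theorem norm_eq_one_of_not_mem {y : 𝓞 K} (h : y ∉ primeOf ι) : ‖ι (y : K)‖ = 1 :=
  le_antisymm (norm_le_one_of_isIntegral ι y.isIntegral_coe) (not_lt.1 h)

theorem natPrime_mem_primeOf : (p : 𝓞 K) ∈ primeOf ι := by
  rw [mem_primeOf]
  show ‖ι (algebraMap (𝓞 K) K (p : 𝓞 K))‖ < 1
  rw [map_natCast, map_natCast, ← map_natCast (algebraMap ℚ_[p] ℂ_[p])]
  show ‖(((p : ℕ) : ℚ_[p]) : ℂ_[p])‖ < 1
  rw [PadicComplex.norm_extends', Padic.norm_p]
  exact inv_lt_one_of_one_lt₀ (by exact_mod_cast hp.out.one_lt)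

instance isPrime_primeOf : (primeOf ι).IsPrime where
  ne_top' h := by
    have := (Ideal.eq_top_iff_one _).1 h
    change ‖ι (algebraMap (𝓞 K) K 1)‖ < 1 at this
    rw [map_one, map_one, norm_one] at this
    exact lt_irrefl _ this
  mem_or_mem' {a b} hab := by
    by_contra hc
    push Not at hc
    change ‖ι ((a : K) * (b : K))‖ < 1 at hab
    rw [map_mul, norm_mul, norm_eq_one_of_not_mem ι hc.1,
      norm_eq_one_of_not_mem ι hc.2, one_mul] at hab
    exact lt_irrefl _ hab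

theorem primeOf_ne_bot : primeOf ι ≠ ⊥ := fun h => by
  have := natPrime_mem_primeOf ι
  rw [h, Ideal.mem_bot, Nat.cast_eq_zero] at this
  exact hp.out.ne_zero this

/-- **The generator of a principal power of the prime of `ι`.** -/
theorem exists_primeElement : ∃ (π : 𝓞 K) (h : ℕ), 0 < h ∧ π ≠ 0 ∧
    π ∣ (p : 𝓞 K) ^ h ∧ ‖ι (π : K)‖ < 1 ∧
    (∀ σ : Gal(K/ℚ), σ ∉ absStab ι → ‖ι (σ (π : K))‖ = 1) ∧
    ∀ x : K, x ≠ 0 → ∃ k : ℤ, ‖ι x‖ ^ h = ‖ι (π : K)‖ ^ k := by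
  set P := primeOf ι with hPdef
  have hP0 : P ∈ nonZeroDivisors (Ideal (𝓞 K)) :=
    mem_nonZeroDivisors_iff_ne_zero.2 (primeOf_ne_bot ι)
  have hPprime : Prime P := Ideal.prime_of_isPrime (primeOf_ne_bot ι) (isPrime_primeOf ι)
  set h := classNumber K
  have hh : 0 < h := classNumber_pos K
  obtain ⟨π, hπ⟩ : ∃ π, P ^ h = Ideal.span {π} := by
    have e : ClassGroup.mk0 (⟨P, hP0⟩ ^ h) = 1 := by rw [map_pow]; exact pow_card_eq_one
    obtain ⟨π, hπ⟩ := ((ClassGroup.mk0_eq_one_iff (pow_mem hP0 h)).1 e).principal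
    exact ⟨π, hπ⟩
  have hπ0 : π ≠ 0 := fun e => by
    rw [e, Ideal.span_singleton_eq_bot.2 rfl] at hπ
    exact primeOf_ne_bot ι (pow_eq_zero_iff hh.ne' |>.1 hπ)
  have hπP : π ∈ P := Ideal.pow_le_self hh.ne' (hπ ▸ Ideal.mem_span_singleton_self π)
  clear_value h
  -- orders at the prime
  have hkey : ∀ y : 𝓞 K, y ≠ 0 → ∃ (k : ℕ) (t : 𝓞 K),
      t ∉ P ∧ y ^ h = π ^ k * t ∧ (y ∈ P → 0 < k) := fun y hy => by
    obtain ⟨k, I, hI, hyI⟩ := WfDvdMonoid.max_power_factor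
      (a₀ := Ideal.span {y}) (by simpa using hy) hPprime.irreducible
    have e : Ideal.span {y ^ h} = Ideal.span {π ^ k} * I ^ h := by
      rw [← Ideal.span_singleton_pow, hyI, mul_pow, ← pow_mul, mul_comm k, pow_mul, hπ,
        Ideal.span_singleton_pow]
    have hmem : y ^ h ∈ Ideal.span {π ^ k} * I ^ h := by
      rw [← e]
      exact Ideal.mem_span_singleton_self (y ^ h)
    have hmem' : y ^ h ∈ Ideal.span {π ^ k} := Ideal.mul_le_left hmem
    obtain ⟨t, ht⟩ := Ideal.mem_span_singleton'.1 hmem'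
    refine ⟨k, t, fun htP => hI (hPprime.dvd_of_dvd_pow (n := h) (Ideal.dvd_iff_le.2 ?_)),
      by rw [← ht, mul_comm], fun hyP => Nat.pos_of_ne_zero fun hk => hI ?_⟩
    · have e2 : I ^ h = Ideal.span {t} := by
        refine mul_left_cancel₀ (pow_ne_zero k (show Ideal.span {π} ≠ 0 by simpa using hπ0)) ?_
        rw [Ideal.span_singleton_pow, ← e, Ideal.span_singleton_mul_span_singleton, ← ht, mul_comm]
      rw [e2, Ideal.span_singleton_le_iff_mem]
      exact htP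
    · rw [hk, pow_zero, one_mul] at hyI
      rw [← hyI]
      exact Ideal.dvd_span_singleton.2 hyP
  have hpow : ∀ (σ : Gal(K/ℚ)), (∀ y : 𝓞 K, ‖ι (σ (y : K))‖ < 1 ↔ y ∈ P) →
      ∀ y : 𝓞 K, y ≠ 0 → ∃ k : ℕ, ‖ι (σ (y : K))‖ ^ h = ‖ι (σ (π : K))‖ ^ k ∧
        ‖ι (y : K)‖ ^ h = ‖ι (π : K)‖ ^ k ∧ (y ∈ P → 0 < k) := fun σ hσ y hy => by
    obtain ⟨k, t, ht, e, hk⟩ := hkey y hy
    have h1 : ‖ι (σ (t : K))‖ = 1 := le_antisymm
      (norm_le_one_of_isIntegral ι (t.isIntegral_coe.map (σ : K →ₐ[ℚ] K).toRingHom.toIntAlgHom))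
      (not_lt.1 fun hlt => ht ((hσ t).1 hlt))
    have e1 := congrArg (fun z : 𝓞 K => ‖ι (σ (z : K))‖) e
    have e2 := congrArg (fun z : 𝓞 K => ‖ι (z : K)‖) e
    simp only [RingOfIntegers.coe_eq_algebraMap, map_mul, map_pow, norm_mul, norm_pow] at h1 e1 e2
    have ht1 := norm_eq_one_of_not_mem ι ht
    rw [RingOfIntegers.coe_eq_algebraMap] at ht1
    simp only [h1, ht1,
      mul_one] at e1 e2
    exact ⟨k, e1, e2, hk⟩
  refine ⟨π, h, hh, hπ0, ?_, hπP, fun σ hσ => ?_, fun x hx => ?_⟩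
  · rw [← Ideal.mem_span_singleton, ← hπ]
    exact Ideal.pow_mem_pow (natPrime_mem_primeOf ι) h
  · by_contra hne
    have hlt : ‖ι (σ (π : K))‖ < 1 := lt_of_le_of_ne (norm_le_one_of_isIntegral ι
      (π.isIntegral_coe.map (σ : K →ₐ[ℚ] K).toRingHom.toIntAlgHom)) hne
    let Q : Ideal (𝓞 K) := P.comap (RingOfIntegers.mapRingHom (σ : K →+* K))
    have hQ : ∀ y, y ∈ Q ↔ ‖ι (σ (y : K))‖ < 1 := fun y => Iff.rfl
    have hPQ : P ≤ Q := fun y hy => by
      obtain ⟨z, hz⟩ := Ideal.mem_span_singleton.1 (hπ ▸ Ideal.pow_mem_pow hy h)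
      have hy' : y ^ h ∈ Q := by
        rw [hz]
        exact Q.mul_mem_right z ((hQ π).2 hlt)
      exact (Ideal.comap_isPrime _ P).mem_of_pow_mem h hy'
    have hQP : Q = P := ((isPrime_primeOf ι).isMaximal (primeOf_ne_bot ι)).eq_of_le
      (Ideal.comap_isPrime _ P).ne_top hPQ |>.symm
    have hsame : ∀ y : 𝓞 K, ‖ι (σ (y : K))‖ < 1 ↔ y ∈ P := fun y => by rw [← hQ, hQP]
    -- the two absolute values agree at `π`
    obtain ⟨e, he, he', hepos⟩ := hpow σ hsame (p : 𝓞 K) (Nat.cast_ne_zero.2 hp.out.ne_zero)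
    simp only [map_natCast] at he he'
    have hπeq : ‖ι (σ (π : K))‖ = ‖ι (π : K)‖ :=
      (pow_left_inj₀ (norm_nonneg _) (norm_nonneg _)
        (hepos (natPrime_mem_primeOf ι)).ne').1 (he.symm.trans he')
    refine hσ fun x => ?_
    obtain ⟨a, b, hb, rfl⟩ := IsFractionRing.div_surjective (A := 𝓞 K) x
    have heq : ∀ y : 𝓞 K, ‖ι (σ (y : K))‖ = ‖ι (y : K)‖ := fun y => by
      rcases eq_or_ne y 0 with rfl | hy
      · simp
      obtain ⟨k, e1, e2, -⟩ := hpow σ hsame y hy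
      rw [hπeq, ← e2] at e1
      exact (pow_left_inj₀ (norm_nonneg _) (norm_nonneg _) hh.ne').1 e1
    rw [map_div₀, map_div₀, map_div₀, norm_div, norm_div, heq a, heq b]
  · obtain ⟨a, b, hb, rfl⟩ := IsFractionRing.div_surjective (A := 𝓞 K) x
    have hb0 : b ≠ 0 := nonZeroDivisors.ne_zero hb
    have ha0 : a ≠ 0 := fun e => hx (by rw [e, map_zero, zero_div])
    have hone : ∀ y : 𝓞 K, ‖ι ((1 : Gal(K/ℚ)) (y : K))‖ < 1 ↔ y ∈ P := fun y => Iff.rfl
    obtain ⟨i, -, hi, -⟩ := hpow 1 hone a ha0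
    obtain ⟨j, -, hj, -⟩ := hpow 1 hone b hb0
    refine ⟨(i : ℤ) - j, ?_⟩
    rw [map_div₀, norm_div, div_pow, hi, hj, zpow_sub₀ (norm_ne_zero_iff.2
      ((map_ne_zero ι).2 (by simpa using hπ0))), zpow_natCast, zpow_natCast]

/-- The weight of the basic unit. -/
def weight [IsCMField K] (σ : Gal(K/ℚ)) : ℤ :=
  (if σ ∈ absStab ι then 1 else 0) - if σ * conjQ K ∈ absStab ι then 1 else 0

/-- **The basic minus `p`-unit.** -/
theorem exists_minusPUnit [IsCMField K] [IsMulCommutative Gal(K/ℚ)] :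
    ∃ (u : Kˣ) (c : ℝ) (h : ℕ), IsMinusPUnit p u ∧ c < 0 ∧ 0 < h ∧
      (∀ σ : Gal(K/ℚ), Real.log ‖ι (σ u)‖ = c * weight ι σ) ∧
      ∀ x : K, x ≠ 0 → ∃ k : ℤ, (h : ℝ) * Real.log ‖ι x‖ = (k : ℝ) * c := by
  obtain ⟨π, h, hh, hπ0, ⟨z, hz⟩, hlt, hout, hval⟩ := exists_primeElement ι
  have hπ : (π : K) ≠ 0 := by simpa using hπ0
  have hρπ : conjQ K (π : K) ≠ 0 := (map_ne_zero _).2 hπ
  refine ⟨Units.mk0 ((π : K) / conjQ K (π : K)) (div_ne_zero hπ hρπ), Real.log ‖ι (π : K)‖, h,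
    ⟨⟨h, ?_, ?_⟩, ?_⟩, Real.log_neg (norm_pos_iff.2 ((map_ne_zero ι).2 hπ)) hlt, hh, fun σ => ?_,
    fun x hx => ?_⟩
  · have e : (p : K) ^ h = conjQ K (π : K) * conjQ K (z : K) := by
      rw [← map_mul, ← map_mul, ← hz, map_pow, map_natCast, map_pow, map_natCast]
    rw [Units.val_mk0, e, show conjQ K (π : K) * conjQ K (z : K) * ((π : K) / conjQ K (π : K)) =
      (π : K) * conjQ K (z : K) by field_simp]
    exact π.isIntegral_coe.mul (z.isIntegral_coe.map (conjQ K : K →ₐ[ℚ] K).toRingHom.toIntAlgHom)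
  · have e : (p : K) ^ h = (π : K) * (z : K) := by rw [← map_mul, ← hz, map_pow, map_natCast]
    rw [Units.val_mk0, e, inv_div,
      show (π : K) * (z : K) * (conjQ K (π : K) / (π : K)) = (z : K) * conjQ K (π : K) by
        field_simp]
    exact z.isIntegral_coe.mul (π.isIntegral_coe.map (conjQ K : K →ₐ[ℚ] K).toRingHom.toIntAlgHom)
  · rw [Units.val_mk0, conjQ_apply, map_div₀, IsCMField.complexConj_apply_apply,
      div_mul_div_cancel₀ (by rw [← conjQ_apply]; exact hρπ), div_self hπ]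
  · have hlog : ∀ τ : Gal(K/ℚ), Real.log ‖ι (τ (π : K))‖ =
        Real.log ‖ι (π : K)‖ * if τ ∈ absStab ι then 1 else 0 := fun τ => by
      split_ifs with hτ
      · rw [mul_one, mem_absStab.1 hτ]
      · rw [mul_zero, hout τ hτ, Real.log_one]
    rw [Units.val_mk0, map_div₀, map_div₀, norm_div,
      Real.log_div (norm_ne_zero_iff.2 ((map_ne_zero ι).2 ((map_ne_zero σ).2 hπ)))
        (norm_ne_zero_iff.2 ((map_ne_zero ι).2 ((map_ne_zero σ).2 hρπ))),
      ← AlgEquiv.mul_apply, hlog, hlog, weight]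
    push_cast
    ring
  · obtain ⟨k, hk⟩ := hval x hx
    refine ⟨k, ?_⟩
    rw [← Real.log_pow, hk, Real.log_zpow]

end FA.GrossRegulator
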