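import Fermat.Agent.GrossRegulator.IwasawaLog
import Fermat.Agent.GrossRegulator.Valuation
import Mathlib.GroupTheory.FiniteAbelian.Duality
import Mathlib.RingTheory.RootsOfUnity.AlgebraicallyClosed

/-!
# The regulator of Gross

For an abelian CM field `K` and multiplicatively independent minus `p`-units `u i` the vectors
`τ ↦ log_p ι (τ N u i)`, `N` the local norm, are independent over `ℂ_p`
(`linearIndependent_regVec`): every character sum over the basic unit is non-zero by Brumer's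
theorem (`sum_char_ne_zero`). There are exactly `(G : H)` independent ones, `H = D ∪ D ρ`, if
`ρ ∉ D` (`exists_independent`, `card_le_of_independent`), and none otherwise.
-/

set_option autoImplicit false
set_option linter.unusedSectionVars false
set_option linter.style.haveILetI false

noncomputable section

open NumberField Finset FA.Brumer
open scoped Classical IsMulCommutative

namespace FA.GrossRegulator

variable {p : ℕ} [hp : Fact p.Prime] {K : Type} [Field K] [NumberField K]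
variable (ι : K →+* ℂ_[p])

/-- The Galois action on `Kˣ`. -/
def gAct (σ : Gal(K/ℚ)) : Kˣ →* Kˣ := Units.map (σ : K →ₐ[ℚ] K).toRingHom.toMonoidHom

theorem coe_gAct (σ : Gal(K/ℚ)) (u : Kˣ) : (gAct σ u : K) = σ (u : K) := rfl

theorem gAct_mul (σ τ : Gal(K/ℚ)) (u : Kˣ) : gAct (σ * τ) u = gAct σ (gAct τ u) := Units.ext rfl

theorem gAct_one (u : Kˣ) : gAct (1 : Gal(K/ℚ)) u = u := Units.ext rfl

theorem exists_near (u : Kˣ) : ∃ (a : ℕ) (b : ℤ), Near (ι u) a b :=
  exists_near_one ((map_ne_zero ι).2 u.ne_zero) (isAlgebraic_map ι _)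

/-- The logarithm at `ι`. -/
def logHom : Additive Kˣ →+ ℂ_[p] where
  toFun u := iwasawaLog p (ι (Additive.toMul u : Kˣ))
  map_zero' := by simp [iwasawaLog_one]
  map_add' u v := by
    obtain ⟨a, b, ha⟩ := exists_near ι (Additive.toMul u)
    obtain ⟨c, d, hc⟩ := exists_near ι (Additive.toMul v)
    rw [toMul_add, Units.val_mul, map_mul, (iwasawaLog_mul ha hc).2]

theorem logHom_apply (u : Kˣ) : logHom ι (Additive.ofMul u) = iwasawaLog p (ι u) := rfl

/-- The valuation at `ι σ`. -/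
def valHom (σ : Gal(K/ℚ)) : Additive Kˣ →+ ℝ where
  toFun u := Real.log ‖ι (σ ((Additive.toMul u : Kˣ) : K))‖
  map_zero' := by simp
  map_add' u v := by
    rw [toMul_add, Units.val_mul, map_mul, map_mul, norm_mul, Real.log_mul] <;> simp

theorem valHom_apply (σ : Gal(K/ℚ)) (u : Kˣ) :
    valHom ι σ (Additive.ofMul u) = Real.log ‖ι (σ u)‖ := rfl

theorem valHom_gAct (σ τ : Gal(K/ℚ)) (u : Kˣ) :
    valHom ι σ (Additive.ofMul (gAct τ u)) = valHom ι (σ * τ) (Additive.ofMul u) := rfl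

/-- The decomposition group as a finset. -/
def stabSet : Finset Gal(K/ℚ) := univ.filter fun d => d ∈ absStab ι

theorem mem_stabSet {d : Gal(K/ℚ)} : d ∈ stabSet ι ↔ d ∈ absStab ι := by simp [stabSet]

theorem card_stabSet_pos : 0 < (stabSet ι).card :=
  card_pos.2 ⟨1, (mem_stabSet ι).2 (one_mem _)⟩

/-- The norm to the fixed field of the decomposition group: the local norm. -/
def localNorm (x : K) : K := ∏ d ∈ stabSet ι, d x

/-- A row of the regulator. -/
def regVec (u : Kˣ) (τ : Gal(K/ℚ)) : ℂ_[p] := iwasawaLog p (ι (τ (localNorm ι u)))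

theorem regVec_eq (u : Kˣ) (τ : Gal(K/ℚ)) :
    regVec ι u τ = ∑ d ∈ stabSet ι, logHom ι (Additive.ofMul (gAct (τ * d) u)) := by
  rw [← map_sum (logHom ι), ← ofMul_prod, logHom_apply, regVec, localNorm, Units.coe_prod,
    map_prod τ]
  rfl

variable [IsAbelianGalois ℚ K] [IsCMField K]

theorem conjQ_comm (σ : Gal(K/ℚ)) (x : K) : conjQ K (σ x) = σ (conjQ K x) := by
  rw [← AlgEquiv.mul_apply, mul_comm, AlgEquiv.mul_apply]

variable (p K) in
/-- The minus `p`-units. -/
def minusPUnits : Subgroup Kˣ where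
  carrier := {u | IsMinusPUnit p u}
  one_mem' := ⟨⟨0, by simpa using isIntegral_one, by simpa using isIntegral_one⟩, by simp⟩
  mul_mem' := fun {u v} ⟨⟨m, h1, h2⟩, h3⟩ ⟨⟨m', h1', h2'⟩, h3'⟩ =>
    ⟨⟨m + m', by rw [Units.val_mul, pow_add, mul_mul_mul_comm]; exact h1.mul h1',
      by rw [Units.val_mul, pow_add, mul_inv, mul_mul_mul_comm]; exact h2.mul h2'⟩,
      by rw [Units.val_mul, map_mul, mul_mul_mul_comm, h3, h3', one_mul]⟩
  inv_mem' := fun {u} ⟨⟨m, h1, h2⟩, h3⟩ =>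
    ⟨⟨m, by rwa [Units.val_inv_eq_inv_val], by rwa [Units.val_inv_eq_inv_val, inv_inv]⟩, by
      rw [Units.val_inv_eq_inv_val, map_inv₀, ← mul_inv, h3, inv_one]⟩

theorem mem_minusPUnits {u : Kˣ} : u ∈ minusPUnits p K ↔ IsMinusPUnit p u := Iff.rfl

theorem gAct_mem {u : Kˣ} (h : u ∈ minusPUnits p K) (σ : Gal(K/ℚ)) :
    gAct σ u ∈ minusPUnits p K := by
  obtain ⟨⟨m, h1, h2⟩, h3⟩ := h
  have hσ : ∀ x : K, IsIntegral ℤ ((p : K) ^ m * x) → IsIntegral ℤ ((p : K) ^ m * σ x) :=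
      fun x hx => by
    have := hx.map (σ : K →ₐ[ℚ] K).toRingHom.toIntAlgHom
    simpa using this
  refine ⟨⟨m, hσ _ h1, ?_⟩, ?_⟩
  · rw [coe_gAct, ← map_inv₀]
    exact hσ _ h2
  · rw [coe_gAct, ← conjQ_apply, conjQ_comm, ← map_mul]
    exact (congrArg σ h3).trans (map_one σ)

theorem isOfFinOrder_of_valHom {u : Kˣ} (hu : u ∈ minusPUnits p K)
    (h : ∀ σ, valHom ι σ (Additive.ofMul u) = 0) : IsOfFinOrder u := by
  refine isOfFinOrder_of_norm ι hu fun σ => ?_
  have h1 := h σ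
  rw [valHom_apply] at h1
  exact Real.eq_one_of_pos_of_log_eq_zero
    (norm_pos_iff.2 ((map_ne_zero ι).2 ((map_ne_zero σ).2 u.ne_zero))) h1

theorem logHom_eq_zero_of_isOfFinOrder {u : Kˣ} (h : IsOfFinOrder u) :
    logHom ι (Additive.ofMul u) = 0 := by
  obtain ⟨n, hn, e⟩ := isOfFinOrder_iff_pow_eq_one.1 h
  have h1 := map_nsmul (logHom ι) n (Additive.ofMul u)
  rw [← ofMul_pow, e, ofMul_one, map_zero, nsmul_eq_mul] at h1
  exact (mul_eq_zero.1 h1.symm).resolve_left (Nat.cast_ne_zero.2 hn.ne')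

theorem valHom_eq_zero_of_isOfFinOrder {u : Kˣ} (h : IsOfFinOrder u) (σ : Gal(K/ℚ)) :
    valHom ι σ (Additive.ofMul u) = 0 := by
  obtain ⟨n, hn, e⟩ := isOfFinOrder_iff_pow_eq_one.1 h
  have h1 := map_nsmul (valHom ι σ) n (Additive.ofMul u)
  rw [← ofMul_pow, e, ofMul_one, map_zero, nsmul_eq_mul] at h1
  exact (mul_eq_zero.1 h1.symm).resolve_left (Nat.cast_ne_zero.2 hn.ne')

/-- A minus `p`-unit with logarithm `0` at `ι` is a root of unity. -/
theorem isOfFinOrder_of_logHom {u : Kˣ} (hu : u ∈ minusPUnits p K)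
    (h : logHom ι (Additive.ofMul u) = 0) : IsOfFinOrder u := by
  obtain ⟨a, b, hab⟩ := exists_near ι u
  rw [logHom_apply, iwasawaLog_eq hab, div_eq_zero_iff,
    or_iff_left (Nat.cast_ne_zero.2 hab.1.ne')] at h
  have e := pexp_plog (p := p) hab.2
  rw [h, pexp_zero, ← map_natCast ι, ← map_zpow₀, ← map_pow, ← map_mul, ← map_one ι] at e
  have e' := ι.injective e.symm
  have e2 := congrArg (IsCMField.complexConj K) e'
  rw [map_mul, map_pow, map_zpow₀, map_natCast, map_one] at e2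
  have e3 : ((p : K) ^ b) ^ 2 = 1 := by
    have e4 : ((u : K) * IsCMField.complexConj K u) ^ a * ((p : K) ^ b) ^ 2 = 1 := by
      linear_combination ((u : K) ^ a * (p : K) ^ b) * e2 + e'
    rwa [hu.2, one_pow, one_mul] at e4
  rw [← zpow_natCast, ← zpow_mul] at e3
  have hb : b = 0 := by
    by_contra hb
    have h1 := congrArg (fun t : K => ‖ι t‖) e3
    simp only [map_zpow₀, map_natCast, map_one, norm_one, norm_prime_zpow] at h1
    have := zpow_right_injective₀ (a := (p : ℝ)) (by exact_mod_cast hp.out.pos)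
      (by exact_mod_cast hp.out.ne_one) (h1.trans (zpow_zero _).symm)
    omega
  rw [hb, zpow_zero, mul_one] at e'
  exact isOfFinOrder_iff_pow_eq_one.2 ⟨a, hab.1, Units.ext (by simpa using e')⟩

/-- A basic unit with its constants. -/
structure Basic where
  /-- the unit -/
  u₀ : Kˣ
  /-- the valuation of the prime element -/
  c : ℝ
  /-- the exponent -/
  h : ℕ
  mem : u₀ ∈ minusPUnits p K
  c_neg : c < 0
  h_pos : 0 < h
  val : ∀ σ, valHom ι σ (Additive.ofMul u₀) = c * weight ι σ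
  exists_int : ∀ x : K, x ≠ 0 → ∃ k : ℤ, (h : ℝ) * Real.log ‖ι x‖ = (k : ℝ) * c

theorem nonempty_basic : Nonempty (Basic ι) := by
  obtain ⟨u, c, h, h1, h2, h3, h4, h5⟩ := exists_minusPUnit ι
  exact ⟨⟨u, c, h, h1, h2, h3, h4, h5⟩⟩

variable {ι} (B : Basic ι)

/-- The integral valuation vector. -/
def Basic.kVec (u : Kˣ) (σ : Gal(K/ℚ)) : ℤ :=
  (B.exists_int (σ u) ((map_ne_zero σ).2 u.ne_zero)).choose

theorem Basic.kVec_spec (u : Kˣ) (σ : Gal(K/ℚ)) :
    (B.h : ℝ) * valHom ι σ (Additive.ofMul u) = (B.kVec u σ : ℝ) * B.c :=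
  (B.exists_int (σ u) ((map_ne_zero σ).2 u.ne_zero)).choose_spec

theorem Basic.kVec_mul (u : Kˣ) {σ d : Gal(K/ℚ)} (hd : d ∈ absStab ι) :
    B.kVec u (σ * d) = B.kVec u σ := by
  have h1 := B.kVec_spec u (σ * d)
  have h2 := B.kVec_spec u σ
  have hv : valHom ι (σ * d) (Additive.ofMul u) = valHom ι σ (Additive.ofMul u) := by
    rw [valHom_apply, valHom_apply, mul_comm, AlgEquiv.mul_apply, mem_absStab.1 hd]
  rw [hv, h2] at h1
  exact_mod_cast (mul_right_cancel₀ B.c_neg.ne h1).symm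

theorem Basic.kVec_conj {u : Kˣ} (hu : u ∈ minusPUnits p K) (σ : Gal(K/ℚ)) :
    B.kVec u (σ * conjQ K) = -B.kVec u σ := by
  have h1 := B.kVec_spec u (σ * conjQ K)
  have h2 := B.kVec_spec u σ
  have e : gAct (conjQ K) u = u⁻¹ := eq_inv_of_mul_eq_one_left (Units.ext (by
    rw [Units.val_mul, coe_gAct, conjQ_apply, mul_comm, hu.2, Units.val_one]))
  rw [← valHom_gAct, e, ofMul_inv, map_neg, mul_neg, h2, ← neg_mul] at h1
  exact_mod_cast (mul_right_cancel₀ B.c_neg.ne h1).symm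

theorem weight_sum {k : Gal(K/ℚ) → ℤ} (hD : ∀ σ, ∀ d ∈ absStab ι, k (σ * d) = k σ)
    (hρ : ∀ σ, k (σ * conjQ K) = -k σ) (σ : Gal(K/ℚ)) :
    ∑ g, k g⁻¹ * weight ι (σ * g) = 2 * (stabSet ι).card * k σ := by
  rw [← Equiv.sum_comp (Equiv.mulLeft σ⁻¹)]
  simp only [Equiv.coe_mulLeft, mul_inv_cancel_left, mul_inv_rev, inv_inv, weight, mul_sub,
    mul_ite, mul_one, mul_zero, sum_sub_distrib, ← sum_filter]
  have h1 : ∑ g ∈ univ.filter (fun g => g ∈ absStab ι), k (g⁻¹ * σ) =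
      (stabSet ι).card * k σ := by
    rw [sum_congr rfl (g := fun _ => k σ) fun g hg => by
      rw [mul_comm, hD σ _ (inv_mem (mem_filter.1 hg).2)], sum_const, nsmul_eq_mul]
    rfl
  have h2 : ∑ g ∈ univ.filter (fun g => g * conjQ K ∈ absStab ι), k (g⁻¹ * σ) =
      -((stabSet ι).card * k σ) := by
    rw [← h1, ← sum_neg_distrib]
    refine sum_nbij' (fun g => g * conjQ K) (fun g => g * conjQ K) (fun g hg => ?_) (fun g hg => ?_)
      (fun g _ => by rw [mul_assoc, conjQ_sq, mul_one])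
      (fun g _ => by rw [mul_assoc, conjQ_sq, mul_one]) fun g _ => ?_
    · simpa using hg
    · refine mem_filter.2 ⟨mem_univ _, ?_⟩
      rw [mul_assoc, conjQ_sq, mul_one]
      exact (mem_filter.1 hg).2
    · rw [show g⁻¹ * σ = (g * conjQ K)⁻¹ * σ * conjQ K by
        rw [mul_inv_rev, mul_comm _ g⁻¹, mul_right_comm, mul_assoc g⁻¹, inv_mul_cancel, mul_one],
        hρ]
  rw [h1, h2]
  ring

/-- The combination of the conjugates of the basic unit. -/
theorem Basic.isOfFinOrder_div {u : Kˣ} (hu : u ∈ minusPUnits p K) :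
    IsOfFinOrder (u ^ (2 * (stabSet ι).card * B.h) /
      ∏ g, gAct g B.u₀ ^ B.kVec u g⁻¹) := by
  refine isOfFinOrder_of_valHom ι (div_mem (pow_mem hu _)
    (prod_mem fun g _ => zpow_mem (gAct_mem B.mem g) _)) fun σ => ?_
  rw [ofMul_div, map_sub, ofMul_pow, map_nsmul, ofMul_prod, map_sum, nsmul_eq_mul]
  simp only [ofMul_zpow, map_zsmul, valHom_gAct, B.val, zsmul_eq_mul]
  have hw := weight_sum (fun τ d hd => B.kVec_mul u hd) (B.kVec_conj hu) σ
  have hw' := congrArg (fun t : ℤ => (t : ℝ)) hw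
  push_cast at hw' ⊢
  have hk := B.kVec_spec u σ
  have e : ∑ g, (B.kVec u g⁻¹ : ℝ) * (B.c * (weight ι (σ * g) : ℝ)) =
      B.c * (2 * ((stabSet ι).card : ℝ) * (B.kVec u σ : ℝ)) := by
    rw [← hw', mul_sum]
    exact sum_congr rfl fun g _ => by ring
  rw [e]
  linear_combination (2 * ((stabSet ι).card : ℝ)) * hk

/-- Every row comes from that of the basic unit. -/
theorem Basic.regVec_eq_sum {u : Kˣ} (hu : u ∈ minusPUnits p K) (τ : Gal(K/ℚ)) :
    ((2 * (stabSet ι).card * B.h : ℕ) : ℂ_[p]) * regVec ι u τ =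
      ∑ g, (B.kVec u g⁻¹ : ℂ_[p]) * regVec ι B.u₀ (τ * g) := by
  simp only [regVec_eq, mul_sum]
  rw [Finset.sum_comm]
  refine sum_congr rfl fun d _ => ?_
  have h := logHom_eq_zero_of_isOfFinOrder ι
    ((gAct (τ * d)).isOfFinOrder (B.isOfFinOrder_div hu))
  rw [map_div, map_pow, map_prod, ofMul_div, map_sub, ofMul_pow, map_nsmul, ofMul_prod, map_sum,
    nsmul_eq_mul, sub_eq_zero] at h
  rw [h]
  refine sum_congr rfl fun g _ => ?_
  rw [map_zpow, ofMul_zpow, map_zsmul, zsmul_eq_mul, ← gAct_mul, mul_right_comm]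

/-- **A character sum over the basic unit does not vanish.** -/
theorem Basic.sum_char_ne_zero (χ : Gal(K/ℚ) →* ℂ_[p]ˣ) (hD : ∀ d ∈ absStab ι, χ d = 1)
    (hρ : χ (conjQ K) ≠ 1) :
    ∑ σ, (χ σ : ℂ_[p]) * logHom ι (Additive.ofMul (gAct σ B.u₀)) ≠ 0 := fun hzero => by
  choose a b hab using fun σ => exists_near ι (gAct σ B.u₀)
  set N : ℕ := ∏ σ, a σ
  have hN : 0 < N := Finset.prod_pos fun σ _ => (hab σ).1
  have hN' : ∀ σ, ∃ b' : ℤ, Near (ι (gAct σ B.u₀ : Kˣ)) N b' := fun σ => by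
    obtain ⟨n, hn⟩ := Finset.dvd_prod_of_mem a (mem_univ σ)
    have hn0 : 0 < n := Nat.pos_of_ne_zero fun e => hN.ne' (by rw [show N = _ from hn, e, mul_zero])
    exact ⟨b σ * n, by rw [show N = _ from hn]; exact near_mul (hab σ) hn0⟩
  choose b' hb' using hN'
  set z := fun σ => ι (gAct σ B.u₀ : Kˣ) ^ N * (p : ℂ_[p]) ^ b' σ
  have hlog : ∀ σ, plog p (z σ) = (N : ℂ_[p]) * logHom ι (Additive.ofMul (gAct σ B.u₀)) :=
    fun σ => by
      rw [logHom_apply, iwasawaLog_eq (hb' σ), mul_div_cancel₀ _ (Nat.cast_ne_zero.2 hN.ne')]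
  obtain ⟨-, κ, _, e, q, hq, hqz⟩ := exists_relation_coeffs (p := p) (fun σ => plog p (z σ))
    (fun σ => small_of_le (p := p) (norm_plog_le _))
    (fun σ => by
      rw [pexp_plog (hb' σ).2]
      exact (((isAlgebraic_map ι _).isIntegral.pow N).mul
        (IsAlgebraic.isIntegral (by
          rw [← map_natCast ι, ← map_zpow₀]
          exact isAlgebraic_map ι _))).isAlgebraic)
    (fun σ => (χ σ : ℂ_[p]))
    (fun σ => (IsIntegral.of_pow (R := ℚ) (n := Fintype.card Gal(K/ℚ)) Fintype.card_pos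
      (by rw [← Units.val_pow_eq_pow_val, ← map_pow, pow_card_eq_one, map_one, Units.val_one]
          exact isIntegral_one)).isAlgebraic)
    0 isAlgebraic_zero (by
      simp only [hlog, mul_left_comm _ (N : ℂ_[p]), ← mul_sum, hzero, mul_zero])
  -- a relation between the logarithms balances the weights
  have hrel : ∀ m : Gal(K/ℚ) → ℚ, ∑ σ, (m σ : ℂ_[p]) * plog p (z σ) = 0 →
      ∑ σ, m σ * (weight ι σ : ℚ) = 0 := fun m hm => by
    obtain ⟨D, hD'⟩ := IsLocalization.exist_integer_multiples_of_finite (nonZeroDivisors ℤ) m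
    choose n hn using hD'
    have hn' : ∀ σ, (n σ : ℚ) = (D : ℤ) * m σ := fun σ => by simpa [zsmul_eq_mul] using hn σ
    set x := ∏ σ, gAct σ B.u₀ ^ n σ
    have hx : logHom ι (Additive.ofMul x) = 0 := by
      refine (mul_eq_zero.1 ?_).resolve_left (Nat.cast_ne_zero.2 hN.ne' : (N : ℂ_[p]) ≠ 0)
      rw [ofMul_prod, map_sum, mul_sum]
      calc ∑ σ, (N : ℂ_[p]) * logHom ι (Additive.ofMul (gAct σ B.u₀ ^ n σ))
          = ((D : ℤ) : ℂ_[p]) * ∑ σ, (m σ : ℂ_[p]) * plog p (z σ) := by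
            rw [mul_sum]
            refine sum_congr rfl fun σ _ => ?_
            rw [ofMul_zpow, map_zsmul, zsmul_eq_mul, hlog, ← mul_assoc, ← mul_assoc]
            have h1 := congrArg (fun t : ℚ => (t : ℂ_[p])) (hn' σ)
            push_cast at h1
            rw [h1]
            ring
        _ = 0 := by rw [hm, mul_zero]
    have hfin := isOfFinOrder_of_logHom ι (prod_mem fun σ _ => zpow_mem (gAct_mem B.mem σ) _) hx
    have h0 := valHom_eq_zero_of_isOfFinOrder ι hfin 1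
    rw [ofMul_prod, map_sum] at h0
    simp only [ofMul_zpow, map_zsmul, valHom_gAct, one_mul, B.val, zsmul_eq_mul] at h0
    have h1 : B.c * ((((D : ℤ) : ℚ) * ∑ σ, m σ * (weight ι σ : ℚ) : ℚ) : ℝ) = 0 := by
      rw [← h0, Rat.cast_mul, Rat.cast_sum, mul_sum, mul_sum]
      refine sum_congr rfl fun σ _ => ?_
      have h2 := congrArg (fun t : ℚ => (t : ℝ)) (hn' σ)
      push_cast at h2 ⊢
      rw [h2]
      ring
    have h3 := (mul_eq_zero.1 h1).resolve_left B.c_neg.ne
    rw [Rat.cast_eq_zero] at h3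
    exact (mul_eq_zero.1 h3).resolve_left (Int.cast_ne_zero.2 (nonZeroDivisors.ne_zero D.2))
  have hTc : ∀ σ, (weight ι σ : ℚ) = ∑ j, q σ j * (weight ι (e j) : ℚ) := fun σ => by
    have h := hrel (fun v => (if v = σ then 1 else 0) - ∑ j, if e j = v then q σ j else 0) (by
      simp only [Rat.cast_sub, Rat.cast_sum, apply_ite (Rat.cast : ℚ → ℂ_[p]), Rat.cast_one,
        Rat.cast_zero, sub_mul, sum_sub_distrib, Finset.sum_mul, ite_mul, one_mul, zero_mul]
      rw [Finset.sum_comm]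
      simp only [Finset.sum_ite_eq, Finset.sum_ite_eq', mem_univ, if_true]
      exact sub_eq_zero.2 (hq σ))
    simp only [sub_mul, sum_sub_distrib, Finset.sum_mul, ite_mul, one_mul, zero_mul] at h
    rw [Finset.sum_comm] at h
    simp only [Finset.sum_ite_eq, Finset.sum_ite_eq', mem_univ, if_true] at h
    exact sub_eq_zero.1 h
  have hT : ∑ σ, (χ σ : ℂ_[p]) * (weight ι σ : ℂ_[p]) = 0 := by
    rw [sum_congr rfl (g := fun σ => (χ σ : ℂ_[p]) *
        ((∑ j, q σ j * (weight ι (e j) : ℚ) : ℚ) : ℂ_[p])) fun σ _ => by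
      rw [← hTc σ, Rat.cast_intCast]]
    simp only [Rat.cast_sum, Rat.cast_mul, mul_sum, ← mul_assoc]
    rw [Finset.sum_comm]
    exact sum_eq_zero fun j _ => by rw [← Finset.sum_mul, hqz j, zero_mul]
  have hρ' : (χ (conjQ K) : ℂ_[p]) = -1 := by
    have h1 : (χ (conjQ K) : ℂ_[p]) * χ (conjQ K) = 1 := by
      rw [← Units.val_mul, ← map_mul, conjQ_sq, map_one, Units.val_one]
    exact (mul_self_eq_one_iff.1 h1).resolve_left fun h2 => hρ (Units.ext h2)
  simp only [weight, Int.cast_sub, Int.cast_ite, Int.cast_one, Int.cast_zero, mul_sub, mul_ite,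
    mul_one, mul_zero, sum_sub_distrib, ← sum_filter] at hT
  have h1 : ∑ σ ∈ univ.filter (fun σ => σ ∈ absStab ι), (χ σ : ℂ_[p]) = (stabSet ι).card := by
    rw [sum_congr rfl (g := fun _ => (1 : ℂ_[p])) fun σ hσ => by
      rw [hD σ (mem_filter.1 hσ).2, Units.val_one], sum_const, nsmul_eq_mul, mul_one]
    rfl
  have h2 : ∑ σ ∈ univ.filter (fun σ => σ * conjQ K ∈ absStab ι), (χ σ : ℂ_[p]) =
      -((stabSet ι).card : ℂ_[p]) := by
    rw [← h1, ← sum_neg_distrib]
    refine sum_nbij' (fun σ => σ * conjQ K) (fun σ => σ * conjQ K) (fun σ hσ => ?_)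
      (fun σ hσ => ?_) (fun σ _ => by rw [mul_assoc, conjQ_sq, mul_one])
      (fun σ _ => by rw [mul_assoc, conjQ_sq, mul_one]) fun σ _ => ?_
    · simpa using hσ
    · refine mem_filter.2 ⟨mem_univ _, ?_⟩
      rw [mul_assoc, conjQ_sq, mul_one]
      exact (mem_filter.1 hσ).2
    · rw [map_mul, Units.val_mul, hρ', mul_neg_one, neg_neg]
  rw [h1, h2, sub_neg_eq_add, ← two_mul] at hT
  exact Nat.cast_ne_zero.2 (card_stabSet_pos ι).ne' ((mul_eq_zero.1 hT).resolve_left two_ne_zero)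

/-- **A combination of the translates of the basic row vanishes only trivially.** -/
theorem Basic.eq_zero_of_sum_regVec {F : Gal(K/ℚ) → ℂ_[p]}
    (hFD : ∀ σ, ∀ d ∈ absStab ι, F (σ * d) = F σ) (hFρ : ∀ σ, F (σ * conjQ K) = -F σ)
    (h : ∀ τ, ∑ g, F g⁻¹ * regVec ι B.u₀ (τ * g) = 0) : F = 0 := by
  have hfour : ∀ χ : Gal(K/ℚ) →* ℂ_[p]ˣ, ∑ g, (χ g : ℂ_[p]) * F g = 0 := fun χ => by
    have hshift : ∀ d, ∑ g, (χ g : ℂ_[p]) * F g =
        (χ d : ℂ_[p]) * ∑ g, (χ g : ℂ_[p]) * F (g * d) := fun d => by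
      rw [mul_sum, ← Equiv.sum_comp (Equiv.mulRight d)]
      exact sum_congr rfl fun g _ => by
        simp only [Equiv.coe_mulRight, map_mul, Units.val_mul]
        ring
    by_cases hD : ∀ d ∈ absStab ι, χ d = 1
    · by_cases hρ : χ (conjQ K) = 1
      · have h1 := hshift (conjQ K)
        simp only [hρ, Units.val_one, one_mul, hFρ, mul_neg, sum_neg_distrib] at h1
        exact mul_left_cancel₀ (two_ne_zero (α := ℂ_[p])) (by linear_combination h1)
      have hL := B.sum_char_ne_zero χ hD hρ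
      have h0 : ∑ τ, (χ τ : ℂ_[p]) * ∑ g, F g⁻¹ * regVec ι B.u₀ (τ * g) = 0 :=
        sum_eq_zero fun τ _ => by rw [h τ, mul_zero]
      have e : ∑ τ, (χ τ : ℂ_[p]) * ∑ g, F g⁻¹ * regVec ι B.u₀ (τ * g) =
          (∑ g, (χ g : ℂ_[p]) * F g) *
            (((stabSet ι).card : ℂ_[p]) *
              ∑ σ, (χ σ : ℂ_[p]) * logHom ι (Additive.ofMul (gAct σ B.u₀))) := by
        have hR : ∑ τ, (χ τ : ℂ_[p]) * regVec ι B.u₀ τ = ((stabSet ι).card : ℂ_[p]) *
            ∑ σ, (χ σ : ℂ_[p]) * logHom ι (Additive.ofMul (gAct σ B.u₀)) := by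
          simp only [regVec_eq]
          simp only [mul_sum]
          rw [Finset.sum_comm]
          refine ((sum_congr rfl fun d hd => ?_).trans (sum_const
            (∑ σ, (χ σ : ℂ_[p]) * logHom ι (Additive.ofMul (gAct σ B.u₀))))).trans
              (by rw [nsmul_eq_mul, mul_sum])
          rw [← Equiv.sum_comp (Equiv.mulRight d⁻¹)]
          refine sum_congr rfl fun σ _ => ?_
          rw [Equiv.coe_mulRight, inv_mul_cancel_right, map_mul, map_inv,
            hD d ((mem_stabSet ι).1 hd), inv_one, mul_one]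
        rw [← hR, sum_mul_sum]
        simp only [mul_sum]
        rw [Finset.sum_comm, ← Equiv.sum_comp (Equiv.inv Gal(K/ℚ))]
        refine sum_congr rfl fun g _ => ?_
        simp only [Equiv.inv_apply, inv_inv]
        rw [← Equiv.sum_comp (Equiv.mulRight g)]
        refine sum_congr rfl fun τ _ => ?_
        rw [Equiv.coe_mulRight, mul_inv_cancel_right, map_mul, Units.val_mul]
        ring
      rw [e] at h0
      exact (mul_eq_zero.1 h0).resolve_right
        (mul_ne_zero (Nat.cast_ne_zero.2 (card_stabSet_pos ι).ne') hL)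
    · push Not at hD
      obtain ⟨d, hd, hd1⟩ := hD
      have h1 := hshift d
      simp only [hFD _ d hd] at h1
      by_contra hne
      exact hd1 (Units.ext ((mul_eq_right₀ hne).1 h1.symm))
  haveI : Fintype (Gal(K/ℚ) →* ℂ_[p]ˣ) := Fintype.ofFinite _
  funext g₀
  have h0 : ∀ σ : Gal(K/ℚ), σ ≠ 1 → ∑ χ : Gal(K/ℚ) →* ℂ_[p]ˣ, (χ σ : ℂ_[p]) = 0 := fun σ hσ => by
    obtain ⟨χ₀, hχ₀⟩ := CommGroup.exists_apply_ne_one_of_hasEnoughRootsOfUnity Gal(K/ℚ) ℂ_[p] hσ
    have e : ∑ χ : Gal(K/ℚ) →* ℂ_[p]ˣ, (χ σ : ℂ_[p]) =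
        ∑ χ : Gal(K/ℚ) →* ℂ_[p]ˣ, ((χ₀ * χ) σ : ℂ_[p]) :=
      (Fintype.sum_equiv (Equiv.mulLeft χ₀) _ _ fun χ => rfl).symm
    simp only [MonoidHom.mul_apply, Units.val_mul, ← Finset.mul_sum] at e
    by_contra hne
    exact hχ₀ (Units.ext (mul_right_cancel₀ hne (by rw [Units.val_one, one_mul]; exact e.symm)))
  have hs : ∑ χ : Gal(K/ℚ) →* ℂ_[p]ˣ, (χ g₀⁻¹ : ℂ_[p]) * ∑ g, (χ g : ℂ_[p]) * F g = 0 :=
    sum_eq_zero fun χ _ => by rw [hfour χ, mul_zero]
  simp only [mul_sum, ← mul_assoc, ← Units.val_mul, ← map_mul] at hs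
  rw [Finset.sum_comm, Finset.sum_eq_single g₀ (fun g _ hg => by
    rw [← Finset.sum_mul, h0 _ fun e => hg (inv_mul_eq_one.1 e).symm, zero_mul])
    (fun h => absurd (mem_univ _) h)] at hs
  simp only [inv_mul_cancel, map_one, Units.val_one, one_mul, sum_const, card_univ,
    nsmul_eq_mul] at hs
  exact (mul_eq_zero.1 hs).resolve_left (Nat.cast_ne_zero.2 Fintype.card_ne_zero)

/-- Independent units have independent valuation vectors. -/
theorem Basic.linearIndependent_kVec {κ : Type} [Fintype κ] {u : κ → Kˣ}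
    (hu : ∀ i, u i ∈ minusPUnits p K)
    (hind : ∀ n : κ → ℤ, IsOfFinOrder (∏ i, u i ^ n i) → n = 0) :
    LinearIndependent ℚ fun i σ => (B.kVec (u i) σ : ℚ) := by
  refine (LinearIndependent.iff_fractionRing ℤ ℚ).1 (Fintype.linearIndependent_iff.2 fun n hn => ?_)
  refine congrFun (hind n (isOfFinOrder_of_valHom ι
    (prod_mem fun i _ => zpow_mem (hu i) _) fun σ => ?_))
  rw [ofMul_prod, map_sum]
  simp only [ofMul_zpow, map_zsmul, zsmul_eq_mul]
  refine mul_left_cancel₀ (Nat.cast_ne_zero.2 B.h_pos.ne' : (B.h : ℝ) ≠ 0) ?_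
  have h1 := congrFun hn σ
  simp only [Finset.sum_apply, zsmul_eq_mul, Pi.mul_apply, Pi.intCast_apply,
    Pi.zero_apply] at h1
  have h2 := congrArg (fun t : ℚ => (t : ℝ)) h1
  push_cast at h2
  rw [mul_zero, mul_sum, ← mul_zero B.c, ← h2, mul_sum]
  exact sum_congr rfl fun i _ => by linear_combination (n i : ℝ) * B.kVec_spec (u i) σ

/-- Rational vectors independent over `ℚ` are independent over `ℂ_p`. -/
theorem linearIndependent_ratCast {κ α : Type} [Fintype κ] [Fintype α] {v : κ → α → ℚ}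
    (h : LinearIndependent ℚ v) (c : κ → ℂ_[p]) (hc : ∀ a, ∑ i, c i * (v i a : ℂ_[p]) = 0) :
    c = 0 := by
  have hinj : LinearMap.ker (Fintype.linearCombination ℚ v) = ⊥ :=
    LinearMap.ker_eq_bot.2 (linearIndependent_iff_injective_fintypeLinearCombination.1 h)
  obtain ⟨f, hf⟩ := (Fintype.linearCombination ℚ v).exists_leftInverse_of_injective hinj
  funext j
  set w := fun a : α => f (Pi.single a 1) j
  have hv : ∀ i, ∑ a, v i a * w a = if i = j then 1 else 0 := fun i => by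
    have e := congrFun (LinearMap.congr_fun hf (Pi.single i 1)) j
    simp only [LinearMap.comp_apply, LinearMap.id_apply, Fintype.linearCombination_apply_single,
      one_smul] at e
    conv at e => lhs; rw [pi_eq_sum_univ' (v i), map_sum]
    simp only [map_smul, Finset.sum_apply, Pi.smul_apply, smul_eq_mul, Pi.single_apply] at e
    rw [e, eq_comm]
    exact if_congr ⟨fun h => h.symm, fun h => h.symm⟩ rfl rfl
  have h1 : ∑ a, (∑ i, c i * (v i a : ℂ_[p])) * (w a : ℂ_[p]) = 0 :=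
    sum_eq_zero fun a _ => by rw [hc a, zero_mul]
  simp only [Finset.sum_mul, mul_assoc, ← Rat.cast_mul] at h1
  rw [Finset.sum_comm] at h1
  simp only [← Finset.mul_sum, ← Rat.cast_sum, hv, apply_ite (Rat.cast : ℚ → ℂ_[p]), Rat.cast_one,
    Rat.cast_zero, mul_ite, mul_one, mul_zero, Finset.sum_ite_eq', mem_univ, if_true] at h1
  exact h1

/-- **The regulator of Gross does not vanish.** -/
theorem linearIndependent_regVec (ι : K →+* ℂ_[p]) {κ : Type} [Fintype κ] {u : κ → Kˣ}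
    (hu : ∀ i, u i ∈ minusPUnits p K)
    (hind : ∀ n : κ → ℤ, IsOfFinOrder (∏ i, u i ^ n i) → n = 0) :
    LinearIndependent ℂ_[p] fun i => regVec ι (u i) := by
  obtain ⟨B⟩ := nonempty_basic ι
  refine Fintype.linearIndependent_iff.2 fun c hc => congrFun ?_
  refine linearIndependent_ratCast (B.linearIndependent_kVec hu hind) c fun σ => ?_
  simp only [Rat.cast_intCast]
  refine congrFun (B.eq_zero_of_sum_regVec (F := fun g => ∑ i, c i * (B.kVec (u i) g : ℂ_[p]))
    (fun g d hd => by simp only [B.kVec_mul _ hd])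
    (fun g => by simp only [B.kVec_conj (hu _), Int.cast_neg, mul_neg, sum_neg_distrib])
    fun τ => ?_) σ
  have h1 := congrFun hc τ
  simp only [Finset.sum_apply, Pi.smul_apply, smul_eq_mul, Pi.zero_apply] at h1
  calc ∑ g, (∑ i, c i * (B.kVec (u i) g⁻¹ : ℂ_[p])) * regVec ι B.u₀ (τ * g)
      = ∑ i, c i * (((2 * (stabSet ι).card * B.h : ℕ) : ℂ_[p]) * regVec ι (u i) τ) := by
        simp only [Finset.sum_mul]
        rw [Finset.sum_comm]
        refine sum_congr rfl fun i _ => ?_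
        rw [B.regVec_eq_sum (hu i) τ, mul_sum]
        exact sum_congr rfl fun g _ => mul_assoc _ _ _
    _ = ((2 * (stabSet ι).card * B.h : ℕ) : ℂ_[p]) * ∑ i, c i * regVec ι (u i) τ := by
        rw [mul_sum]
        exact sum_congr rfl fun i _ => mul_left_comm _ _ _
    _ = 0 := by rw [h1, mul_zero]

end FA.GrossRegulator
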